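/-
PROJECT C, slice D1-h4 (helper4), part A2: INJECTIVITY OF INFLATION in level-constant cohomology.

* `inflFin_eq`: for levels `W ≤ U`, the finite-level inflation `inflFin A U W h n`
  (`Hⁿ(G ⧸ U, A^U) ⟶ Hⁿ(G ⧸ W, A^W)`) is Mathlib's inflation for the group `G ⧸ W`, its normal
  subgroup `U / W = U.map (mk' W)` and the module `A^W`, precomposed with the isomorphism induced by
  Noether's third isomorphism `(G ⧸ W) ⧸ (U / W) ≃* G ⧸ U` and `A^U ≃ (A^W)^(U/W)`.
* `inflFin_one_injective`: injective in degree `1`, always.
* `inflFin_two_injective`: injective in degree `2` if `H¹(U / W, A^W) = 0`.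
* `infl_one_injective`, `infl_two_injective`: the same for `LC.infl : Hⁿ(G ⧸ U, A^U) ⟶ Hⁿ_LC(G, A)`.
-/
import Fermat.Agent.CFT.LC.Inflation
import Fermat.Agent.CFT.InfRes2

set_option autoImplicit false

universe u

noncomputable section

namespace Fermat.Agent.CFT.D.H4

open CategoryTheory groupCohomology Fermat.Agent.CFT.LC

variable {k G : Type u} [CommRing k] [Group G] (A : Rep.{u} k G)

section Layer

variable (U W : Subgroup G) [U.Normal] [W.Normal] (h : W ≤ U)

/-- The image `U / W` of `U` in `G ⧸ W`. -/
abbrev layer : Subgroup (G ⧸ W) := U.map (QuotientGroup.mk' W)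

/-- Noether's third isomorphism `(G ⧸ W) ⧸ (U / W) →* G ⧸ U`, as a homomorphism. -/
def layerHom : (G ⧸ W) ⧸ layer U W →* G ⧸ U :=
  (QuotientGroup.quotientQuotientEquivQuotient W U h).toMonoidHom

@[simp] lemma layerHom_mk_mk (g : G) :
    layerHom U W h (((g : G ⧸ W) : (G ⧸ W) ⧸ layer U W)) = (g : G ⧸ U) := rfl

/-- The inverse homomorphism `G ⧸ U →* (G ⧸ W) ⧸ (U / W)`. -/
def layerHomInv : G ⧸ U →* (G ⧸ W) ⧸ layer U W :=
  (QuotientGroup.quotientQuotientEquivQuotient W U h).symm.toMonoidHom

@[simp] lemma layerHomInv_mk (g : G) :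
    layerHomInv U W h (g : G ⧸ U) = (((g : G ⧸ W) : (G ⧸ W) ⧸ layer U W)) := rfl

lemma layerHom_comp_layerHomInv :
    (layerHom U W h).comp (layerHomInv U W h) = MonoidHom.id (G ⧸ U) := by
  ext c
  rfl

lemma layerHom_comp_mk' :
    (layerHom U W h).comp (QuotientGroup.mk' (layer U W)) = quotMap U W h := by
  ext c
  rfl

/-- `A^U → (A^W)^(U/W)`, as a morphism of `(G ⧸ W) ⧸ (U / W)`-representations. -/
def layerInv :
    Rep.res (layerHom U W h) (A.quotientToInvariants U) ⟶
      (A.quotientToInvariants W).quotientToInvariants (layer U W) :=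
  Rep.ofHom
    ⟨{  toFun := fun x => ⟨⟨x.1, fun w => x.2 ⟨w.1, h w.2⟩⟩, fun n => by
          obtain ⟨n, u, hu, rfl⟩ := n
          apply Subtype.ext
          exact x.2 ⟨u, hu⟩⟩
        map_add' := fun _ _ => rfl
        map_smul' := fun _ _ => rfl },
      fun c => QuotientGroup.induction_on c fun c => QuotientGroup.induction_on c fun g => by
        ext x
        rfl⟩

@[simp] lemma layerInv_apply_coe (x : A.quotientToInvariants U) :
    ((((layerInv A U W h).hom x).1).1 : A) = x.1 := rfl

/-- `(A^W)^(U/W) → A^U`, as a morphism of `G ⧸ U`-representations. -/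
def layerInvInv :
    Rep.res (layerHomInv U W h)
        ((A.quotientToInvariants W).quotientToInvariants (layer U W)) ⟶
      A.quotientToInvariants U :=
  Rep.ofHom
    ⟨{  toFun := fun y => ⟨y.1.1, fun u => by
          have := y.2 ⟨((u : G) : G ⧸ W), ⟨u, u.2, rfl⟩⟩
          exact congrArg Subtype.val this⟩
        map_add' := fun _ _ => rfl
        map_smul' := fun _ _ => rfl },
      fun c => QuotientGroup.induction_on c fun g => by
        ext y
        rfl⟩

lemma layerInv_layerInvInv :
    ((Rep.resFunctor (layerHomInv U W h)).map (layerInv A U W h) ≫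
        layerInvInv A U W h).hom.toLinearMap =
      (𝟙 (A.quotientToInvariants U) : A.quotientToInvariants U ⟶ _).hom.toLinearMap := by
  ext x
  rfl

/-- The comparison map `Hⁿ(G ⧸ U, A^U) ⟶ Hⁿ((G ⧸ W) ⧸ (U / W), (A^W)^(U/W))`. -/
def layerMap (n : ℕ) :
    groupCohomology (A.quotientToInvariants U) n ⟶
      groupCohomology ((A.quotientToInvariants W).quotientToInvariants (layer U W)) n :=
  groupCohomology.map (layerHom U W h) (layerInv A U W h) n

lemma layerMap_injective (n : ℕ) : Function.Injective (layerMap A U W h n) := by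
  have h1 : layerMap A U W h n ≫
      groupCohomology.map (layerHomInv U W h) (layerInvInv A U W h) n = 𝟙 _ := by
    unfold layerMap
    rw [← groupCohomology.map_comp, ← groupCohomology.map_id]
    exact groupCohomology.map_congr (layerHom_comp_layerHomInv U W h)
      (layerInv_layerInvInv A U W h) n
  intro x y hxy
  have hx := ConcreteCategory.congr_hom h1 x
  have hy := ConcreteCategory.congr_hom h1 y
  rw [ConcreteCategory.comp_apply] at hx hy
  rw [hxy] at hx
  exact hx.symm.trans hy

/-- **Finite-level inflation is Mathlib's inflation** for `G ⧸ W`, `U / W` and `A^W`. -/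
theorem inflFin_eq (n : ℕ) :
    inflFin A U W h n = layerMap A U W h n ≫
      groupCohomology.map (QuotientGroup.mk' (layer U W))
        (invLift (A.quotientToInvariants W) (layer U W)) n := by
  unfold layerMap inflFin
  rw [← groupCohomology.map_comp]
  refine groupCohomology.map_congr (layerHom_comp_mk' U W h).symm ?_ n
  ext x
  rfl

/-- Finite-level inflation is injective as soon as Mathlib's inflation is. -/
lemma inflFin_injective_of (n : ℕ)
    (hinj : Function.Injective (groupCohomology.map (QuotientGroup.mk' (layer U W))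
        (invLift (A.quotientToInvariants W) (layer U W)) n)) :
    Function.Injective (inflFin A U W h n) := by
  rw [inflFin_eq A U W h n]
  intro x y hxy
  rw [ConcreteCategory.comp_apply, ConcreteCategory.comp_apply] at hxy
  exact layerMap_injective A U W h n (hinj hxy)

/-- **Inflation between finite levels is injective on `H¹`.** -/
theorem inflFin_one_injective : Function.Injective (inflFin A U W h 1) := by
  apply inflFin_injective_of A U W h 1
  have : Mono (groupCohomology.H1InfRes (A.quotientToInvariants W) (layer U W)).f :=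
    inferInstance
  exact (ModuleCat.mono_iff_injective _).1 this

/-- **Inflation between finite levels is injective on `H²`** when `H¹(U / W, A^W) = 0`. -/
theorem inflFin_two_injective
    (hS : Fermat.Agent.CFT.InfRes2.H1Vanishes (A.quotientToInvariants W) (layer U W)) :
    Function.Injective (inflFin A U W h 2) :=
  inflFin_injective_of A U W h 2 (Fermat.Agent.CFT.InfRes2.inf₂_injective hS)

end Layer

section LC

variable (𝒰 : Levels G) (U : Subgroup G) [U.Normal] (hU : U ∈ 𝒰.sets)

/-- Inflation into level-constant cohomology is injective if all the finite-level inflations are. -/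
lemma infl_injective_of_inflFin (n : ℕ)
    (hinj : ∀ (W : Subgroup G) (_ : W.Normal) (_ : W ∈ 𝒰.sets) (h : W ≤ U),
      Function.Injective (inflFin A U W h n)) :
    Function.Injective (infl 𝒰 A U hU n) := by
  rw [injective_iff_map_eq_zero]
  intro y hy
  obtain ⟨W, hN, hW, h, hy'⟩ := (infl_eq_zero_iff A 𝒰 U hU n y).1 hy
  exact hinj W hN hW h (hy'.trans (map_zero _).symm)

/-- **`infl : H¹(G ⧸ U, A^U) ⟶ H¹_LC(G, A)` is injective.** -/
theorem infl_one_injective : Function.Injective (infl 𝒰 A U hU 1) :=
  infl_injective_of_inflFin A 𝒰 U hU 1 fun W _ _ h => inflFin_one_injective A U W h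

/-- **`infl : H²(G ⧸ U, A^U) ⟶ H²_LC(G, A)` is injective** if `H¹(U / W, A^W) = 0` for every level
`W ≤ U`. -/
theorem infl_two_injective
    (hS : ∀ (W : Subgroup G) (_ : W.Normal), W ∈ 𝒰.sets → W ≤ U →
      Fermat.Agent.CFT.InfRes2.H1Vanishes (A.quotientToInvariants W) (layer U W)) :
    Function.Injective (infl 𝒰 A U hU 2) :=
  infl_injective_of_inflFin A 𝒰 U hU 2 fun W hN hW h => inflFin_two_injective A U W h (hS W hN hW h)

/-- Variant with the vanishing of `H¹` stated as `IsZero`. -/
theorem infl_two_injective_of_isZero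
    (hS : ∀ (W : Subgroup G) (_ : W.Normal), W ∈ 𝒰.sets → W ≤ U →
      Limits.IsZero (groupCohomology (Rep.res (layer U W).subtype (A.quotientToInvariants W)) 1)) :
    Function.Injective (infl 𝒰 A U hU 2) :=
  infl_two_injective A 𝒰 U hU fun W hN hW h =>
    Fermat.Agent.CFT.InfRes2.h1Vanishes_of_isZero (hS W hN hW h)

end LC

end Fermat.Agent.CFT.D.H4
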