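/-
PROJECT C, slice D1-h4 (helper4), part A1/A3: FINITE-LEVEL MAPS and the INJECTIVITY CRITERION.

For a continuous homomorphism `φ : G' →* G` of levelled groups, representations `X` of `G`,
`Y` of `G'` and `π : Rep.res φ X ⟶ Y`, and levels `U` of `G`, `V` of `G'` with `V ≤ U.comap φ`,
we define the finite-level map
  `finMap : Hⁿ(G ⧸ U, X^U) ⟶ Hⁿ(G' ⧸ V, Y^V)`
and prove that it is compatible with inflation into level-constant cohomology:
  `infl_U ≫ LC.map hφ π n = finMap ≫ infl_V`.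
Consequence (`map_injective_of_finLevel`): if below every level `U₀` of `G` there is a level `U`
and a level `V ≤ U.comap φ` of `G'` such that `finMap` and `infl_V` are injective in degree `n`,
then `LC.map hφ π n` is injective.  This is the skeleton of hypothesis (h4) of D-PLAN v1.
-/
import Fermat.Agent.CFT.LC.Inflation
import Fermat.Agent.CFT.LC.Functoriality

set_option autoImplicit false

universe u

noncomputable section

namespace Fermat.Agent.CFT.D.H4

open CategoryTheory groupCohomology Fermat.Agent.CFT.LC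

variable {k G G' : Type u} [CommRing k] [Group G] [Group G']

section FinMap

variable (φ : G' →* G) {X : Rep.{u} k G} {Y : Rep.{u} k G'} (π : Rep.res φ X ⟶ Y)
  (U : Subgroup G) [U.Normal] (V : Subgroup G') [V.Normal] (hVU : V ≤ U.comap φ)

/-- The homomorphism `G' ⧸ V →* G ⧸ U` induced by `φ` when `V ≤ φ⁻¹ U`. -/
def quotHom : G' ⧸ V →* G ⧸ U := QuotientGroup.map V U φ hVU

@[simp] lemma quotHom_mk (g : G') : quotHom φ U V hVU (g : G' ⧸ V) = ((φ g : G) : G ⧸ U) := rfl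

/-- The map `X^U → Y^V` induced by `π`, as a morphism of `G' ⧸ V`-representations. -/
def invMap : Rep.res (quotHom φ U V hVU) (X.quotientToInvariants U) ⟶ Y.quotientToInvariants V :=
  Rep.ofHom
    ⟨{  toFun := fun x => ⟨π.hom x.1, fun v => by
          have h1 := Rep.hom_comm_apply π (v : G') x.1
          have h2 : (Rep.res φ X).ρ (v : G') x.1 = x.1 := x.2 ⟨φ v, hVU v.2⟩
          rw [h2] at h1
          exact h1.symm⟩
        map_add' := fun x y => Subtype.ext (map_add π.hom x.1 y.1)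
        map_smul' := fun c x => Subtype.ext (map_smul π.hom c x.1) },
      fun c => QuotientGroup.induction_on c fun g => by
        ext x
        exact Rep.hom_comm_apply π g x.1⟩

@[simp] lemma invMap_apply_coe (x : X.quotientToInvariants U) :
    (((invMap φ π U V hVU).hom x).1 : Y) = π.hom x.1 := rfl

/-- The finite-level map `Hⁿ(G ⧸ U, X^U) ⟶ Hⁿ(G' ⧸ V, Y^V)`. -/
def finMap (n : ℕ) :
    groupCohomology (X.quotientToInvariants U) n ⟶ groupCohomology (Y.quotientToInvariants V) n :=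
  groupCohomology.map (quotHom φ U V hVU) (invMap φ π U V hVU) n

variable {𝒰 : Levels G} {𝒰' : Levels G'} (hφ : Levels.Continuous φ 𝒰' 𝒰)

lemma inflComplex_mapComplex (hU : U ∈ 𝒰.sets) (hV : V ∈ 𝒰'.sets) :
    inflComplex 𝒰 X U hU ≫ mapComplex hφ π =
      cochainsMap (quotHom φ U V hVU) (invMap φ π U V hVU) ≫ inflComplex 𝒰' Y V hV := by
  ext n f : 3
  apply Subtype.ext
  rfl

/-- **Inflation is natural** for continuous homomorphisms:
`infl_U ≫ LC.map hφ π n = finMap ≫ infl_V`. -/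
theorem infl_map (hU : U ∈ 𝒰.sets) (hV : V ∈ 𝒰'.sets) (n : ℕ) :
    infl 𝒰 X U hU n ≫ LC.map hφ π n = finMap φ π U V hVU n ≫ infl 𝒰' Y V hV n := by
  change HomologicalComplex.homologyMap (inflComplex 𝒰 X U hU) n ≫
      HomologicalComplex.homologyMap (mapComplex hφ π) n =
    HomologicalComplex.homologyMap (cochainsMap (quotHom φ U V hVU) (invMap φ π U V hVU)) n ≫
      HomologicalComplex.homologyMap (inflComplex 𝒰' Y V hV) n
  rw [← HomologicalComplex.homologyMap_comp, ← HomologicalComplex.homologyMap_comp,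
    inflComplex_mapComplex φ π U V hVU hφ hU hV]

theorem infl_map_apply (hU : U ∈ 𝒰.sets) (hV : V ∈ 𝒰'.sets) (n : ℕ)
    (y : groupCohomology (X.quotientToInvariants U) n) :
    LC.map hφ π n (infl 𝒰 X U hU n y) = infl 𝒰' Y V hV n (finMap φ π U V hVU n y) := by
  have := ConcreteCategory.congr_hom (infl_map φ π U V hVU hφ hU hV n) y
  rwa [ConcreteCategory.comp_apply, ConcreteCategory.comp_apply] at this

end FinMap

section Criterion

variable {φ : G' →* G} {X : Rep.{u} k G} {Y : Rep.{u} k G'} (π : Rep.res φ X ⟶ Y)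
  {𝒰 : Levels G} {𝒰' : Levels G'} (hφ : Levels.Continuous φ 𝒰' 𝒰)

/-- **Injectivity criterion.**  If below every level `U₀` of `G` there are a level `U ≤ U₀` and a
level `V ≤ φ⁻¹ U` of `G'` such that the finite-level map `Hⁿ(G ⧸ U, X^U) → Hⁿ(G' ⧸ V, Y^V)` and the
inflation `Hⁿ(G' ⧸ V, Y^V) → Hⁿ_LC(G', Y)` are injective, then `LC.map hφ π n` is injective. -/
theorem map_injective_of_finLevel (n : ℕ)
    (h : ∀ U₀ ∈ 𝒰.sets, ∃ (U : Subgroup G) (_ : U.Normal) (_ : U ∈ 𝒰.sets) (_ : U ≤ U₀)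
      (V : Subgroup G') (_ : V.Normal) (hV : V ∈ 𝒰'.sets) (hVU : V ≤ U.comap φ),
      Function.Injective (finMap φ π U V hVU n) ∧ Function.Injective (infl 𝒰' Y V hV n)) :
    Function.Injective (LC.map hφ π n) := by
  rw [injective_iff_map_eq_zero]
  intro x hx
  obtain ⟨U₀, hN₀, hU₀, y, rfl⟩ := exists_infl_eq 𝒰 X x
  obtain ⟨U, hN, hU, hUU₀, V, hNV, hV, hVU, hfin, hinf⟩ := h U₀ hU₀
  rw [← inflFin_infl_apply X 𝒰 U₀ U hUU₀ hU₀ hU n y] at hx ⊢
  rw [infl_map_apply φ π U V hVU hφ hU hV n] at hx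
  have h1 : finMap φ π U V hVU n (inflFin X U₀ U hUU₀ n y) = 0 :=
    hinf (hx.trans (map_zero _).symm)
  have h2 : inflFin X U₀ U hUU₀ n y = 0 := hfin (h1.trans (map_zero _).symm)
  rw [h2, map_zero]

end Criterion

section JointCriterion

variable {ι : Type*} {Gv : ι → Type u} [∀ v, Group (Gv v)] {φ : ∀ v, Gv v →* G}
  {X : Rep.{u} k G} {Y : ∀ v, Rep.{u} k (Gv v)} (π : ∀ v, Rep.res (φ v) X ⟶ Y v)
  {𝒰 : Levels G} {𝒰v : ∀ v, Levels (Gv v)} (hφ : ∀ v, Levels.Continuous (φ v) (𝒰v v) 𝒰)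

/-- **Joint injectivity criterion** (the shape of `(h4a)`, `(h4b)` in `D/ShaTwo.lean`).  If below
every level `U₀` of `G` there is a level `U ≤ U₀` and, for every `v`, a level `V v ≤ (φ v)⁻¹ U` of
`Gv v` such that the finite-level maps `Hⁿ(G ⧸ U, X^U) → Hⁿ(Gv v ⧸ V v, (Y v)^(V v))` are jointly
injective and every inflation `Hⁿ(Gv v ⧸ V v, (Y v)^(V v)) → Hⁿ_LC(Gv v, Y v)` is injective, then
the maps `LC.map (hφ v) (π v) n` are jointly injective. -/
theorem eq_zero_of_forall_map_eq_zero_of_finLevel (n : ℕ)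
    (h : ∀ U₀ ∈ 𝒰.sets, ∃ (U : Subgroup G) (_ : U.Normal) (_ : U ∈ 𝒰.sets) (_ : U ≤ U₀),
      ∃ (V : ∀ v, Subgroup (Gv v)) (_ : ∀ v, (V v).Normal) (hV : ∀ v, V v ∈ (𝒰v v).sets)
        (hVU : ∀ v, V v ≤ U.comap (φ v)),
        (∀ y : groupCohomology (X.quotientToInvariants U) n,
          (∀ v, finMap (φ v) (π v) U (V v) (hVU v) n y = 0) → y = 0) ∧
        ∀ v, Function.Injective (infl (𝒰v v) (Y v) (V v) (hV v) n))
    (x : H 𝒰 X n) (hx : ∀ v, LC.map (hφ v) (π v) n x = 0) : x = 0 := by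
  obtain ⟨U₀, hN₀, hU₀, y, rfl⟩ := exists_infl_eq 𝒰 X x
  obtain ⟨U, hN, hU, hUU₀, V, hNV, hV, hVU, hfin, hinf⟩ := h U₀ hU₀
  rw [← inflFin_infl_apply X 𝒰 U₀ U hUU₀ hU₀ hU n y] at hx ⊢
  have h2 : inflFin X U₀ U hUU₀ n y = 0 := by
    apply hfin
    intro v
    have hxv := hx v
    rw [infl_map_apply (φ v) (π v) U (V v) (hVU v) (hφ v) hU (hV v) n] at hxv
    exact hinf v (hxv.trans (map_zero _).symm)
  rw [h2, map_zero]

end JointCriterion

end Fermat.Agent.CFT.D.H4
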