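/-
PROJECT C, slice D1-h4 (helper4), part A4: `H¹` of the layers of `Hom(B, Y)` when the level acts
trivially on the lattice `B`.

If `V` acts trivially on the `k`-free module `B` and `H¹(V / W, Y^W) = 0`, then
`H¹(V / W, Hom(B, Y)^W) = 0` (a cocycle is determined by its values on a basis of `B`, each of
which is a cocycle with values in `Y^W`).  Consequently `LC.infl` is injective on
`H²(G ⧸ V, Hom(B, Y)^V)` as soon as Hilbert 90 holds for all the layers of `Y`.
-/
import Fermat.Agent.CFT.A7.HomRep
import Fermat.Agent.CFT.D.H4.InflInj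

set_option autoImplicit false

universe u

noncomputable section

namespace Fermat.Agent.CFT.D.H4

open CategoryTheory groupCohomology Fermat.Agent.CFT.LC Fermat.Agent.CFT.A7.HomRep
  Fermat.Agent.CFT.InfRes2

variable {k G : Type u} [CommRing k] [Group G] (B Y : Rep.{u} k G)

section Layer

variable (V W : Subgroup G) [V.Normal] [W.Normal] (h : W ≤ V)

omit [V.Normal] in
include h in
/-- **Hilbert 90 passes to `Hom(B, -)`** on a layer `V / W`, when `V` acts trivially on the free
module `B`. -/
theorem h1Vanishes_layer_homRep [Module.Free k B.V] (hB : ∀ v ∈ V, ∀ b : B.V, B.ρ v b = b)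
    (hY : H1Vanishes (Y.quotientToInvariants W) (layer V W)) :
    H1Vanishes ((homRep B Y).quotientToInvariants W) (layer V W) := by
  intro c hc
  let bas := Module.Free.chooseBasis k B.V
  -- values of `W`-invariant homomorphisms are `W`-invariant
  have hval : ∀ (f : (homRep B Y).quotientToInvariants W) (b : B.V) (w : W),
      Y.ρ (w : G) (toLin f.1 b) = toLin f.1 b := by
    intro f b w
    have h1 := (ρ_eq_self_iff B Y (w : G) f.1).1 (f.2 w) b
    rw [hB (w : G) (h w.2) b] at h1
    exact h1.symm
  -- the action of the layer on `Hom(B, Y)^W`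
  have hact : ∀ (v : G) (hv : v ∈ V) (f : (homRep B Y).quotientToInvariants W) (b : B.V),
      toLin (((homRep B Y).quotientToInvariants W).ρ ((v : G ⧸ W)) f).1 b =
        Y.ρ v (toLin f.1 b) := by
    intro v hv f b
    change toLin ((homRep B Y).ρ v f.1) b = _
    rw [toLin_ρ, hB v⁻¹ (V.inv_mem hv) b]
  -- the component cocycles
  let cj : Module.Free.ChooseBasisIndex k B.V → layer V W → Y.quotientToInvariants W :=
    fun j m => ⟨toLin (c m).1 (bas j), fun w => hval (c m) (bas j) w⟩
  have hcj : ∀ j (m m' : layer V W),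
      cj j (m * m') = (Y.quotientToInvariants W).ρ (m : G ⧸ W) (cj j m') + cj j m := by
    intro j m m'
    obtain ⟨_, v, hv, rfl⟩ := m
    apply Subtype.ext
    have h1 := congrArg (fun f : (homRep B Y).quotientToInvariants W => toLin f.1 (bas j))
      (hc ⟨_, v, hv, rfl⟩ m')
    simp only at h1
    refine h1.trans ?_
    change toLin ((((homRep B Y).quotientToInvariants W).ρ ((v : G ⧸ W)) (c m')).1 +
      (c ⟨_, v, hv, rfl⟩).1) (bas j) = _
    rw [map_add, LinearMap.add_apply, hact v hv]
    rfl
  choose y hy using fun j => hY (cj j) (hcj j)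
  -- the homomorphism with the prescribed values on the basis
  let F' : B.V →ₗ[k] (Y.quotientToInvariants W).V := bas.constr k y
  let F : B.V →ₗ[k] Y.V := (Submodule.subtype _).comp F'
  have hFinv : ∀ w : W, (homRep B Y).ρ (w : G) (toLin.symm F) = toLin.symm F := by
    intro w
    rw [ρ_eq_self_iff]
    intro b
    rw [hB (w : G) (h w.2) b]
    exact ((F' b).2 w).symm
  refine ⟨⟨toLin.symm F, hFinv⟩, fun m => ?_⟩
  obtain ⟨_, v, hv, rfl⟩ := m
  apply Subtype.ext
  apply toLin.injective
  apply bas.ext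
  intro j
  have h1 := congrArg Subtype.val (hy j ⟨_, v, hv, rfl⟩)
  change toLin (c ⟨_, v, hv, rfl⟩).1 (bas j) =
    Y.ρ v ((y j).1) - (y j).1 at h1
  rw [h1]
  change _ = toLin ((((homRep B Y).quotientToInvariants W).ρ ((v : G ⧸ W))
    ⟨toLin.symm F, hFinv⟩).1 - toLin.symm F) (bas j)
  rw [map_sub, LinearMap.sub_apply, hact v hv]
  have hF : toLin (toLin.symm F) (bas j) = (y j).1 := by
    change F (bas j) = _
    change ((F' (bas j)).1 : Y.V) = _
    rw [Module.Basis.constr_basis]
  change _ = Y.ρ v (toLin (toLin.symm F) (bas j)) - toLin (toLin.symm F) (bas j)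
  rw [hF]

end Layer

section LC

variable (𝒰 : Levels G) (V : Subgroup G) [V.Normal] (hV : V ∈ 𝒰.sets)

/-- **`infl : H²(G ⧸ V, Hom(B, Y)^V) ⟶ H²_LC(G, Hom(B, Y))` is injective** when `V` acts trivially on
the free module `B` and `H¹(V / W, Y^W) = 0` for every level `W ≤ V`. -/
theorem infl_two_injective_homRep [Module.Free k B.V] (hB : ∀ v ∈ V, ∀ b : B.V, B.ρ v b = b)
    (hY : ∀ (W : Subgroup G) (_ : W.Normal), W ∈ 𝒰.sets → W ≤ V →
      H1Vanishes (Y.quotientToInvariants W) (layer V W)) :
    Function.Injective (infl 𝒰 (homRep B Y) V hV 2) :=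
  infl_two_injective (homRep B Y) 𝒰 V hV fun W hN hW h =>
    h1Vanishes_layer_homRep B Y V W h hB (hY W hN hW h)

/-- Variant with the vanishing of `H¹` stated as `IsZero`. -/
theorem infl_two_injective_homRep_of_isZero [Module.Free k B.V]
    (hB : ∀ v ∈ V, ∀ b : B.V, B.ρ v b = b)
    (hY : ∀ (W : Subgroup G) (_ : W.Normal), W ∈ 𝒰.sets → W ≤ V →
      Limits.IsZero (groupCohomology (Rep.res (layer V W).subtype (Y.quotientToInvariants W)) 1)) :
    Function.Injective (infl 𝒰 (homRep B Y) V hV 2) :=
  infl_two_injective_homRep B Y 𝒰 V hV hB fun W hN hW h => h1Vanishes_of_isZero (hY W hN hW h)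

end LC

end Fermat.Agent.CFT.D.H4
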