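/-
PROJECT C, slice D1-h4 (helper4), part A5: SEMILOCAL SHAPIRO WITH A COMPARISON GROUP.

`Γ` a group, `M : Rep k Γ` with a system of imprimitivity `S` indexed by a finite `Γ`-set `X`
(helper19, `CFT/C1`).  For `x0 : X` let `ψ : Γ' →* Γ` be an injective homomorphism whose image is the
stabiliser of `x0` ("the decomposition group is the local Galois group"), `N : Rep k Γ'` and
`τ : Rep.res ψ M ⟶ N` a morphism which factors through the projection `π x0` and restricts to a
bijection `block x0 ≃ N` ("the block at the place is the local module").  Then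
`Hⁿ(Γ, M) ⟶ Hⁿ(Γ', N)` is the semilocal Shapiro map `resProjMap x0` followed by an injective map.
For a family of orbit representatives the maps `Hⁿ(Γ, M) ⟶ Hⁿ(Γ' i, N i)` are therefore jointly
injective (`CompareData.eq_zero_of_forall_map_eq_zero`).
-/
import Fermat.Agent.CFT.C1.Orbits

set_option autoImplicit false

universe u

noncomputable section

namespace Fermat.Agent.CFT.D.H4

open CategoryTheory groupCohomology Fermat.Agent.CFT.C1

variable {k Γ : Type u} [CommRing k] [Group Γ] {M : Rep.{u} k Γ}
  {X : Type*} [MulAction Γ X] [Fintype X]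

/-- Comparison data at a point `x0` of a system of imprimitivity: a group `Γ'` identified by `ψ` with
the stabiliser of `x0`, and a `Γ'`-representation `N` identified by `τ` with the block at `x0`. -/
structure CompareData (S : ImprimitivitySystem M X) (x0 : X) (Γ' : Type u) [Group Γ']
    (N : Rep.{u} k Γ') where
  /-- the embedding of the comparison group -/
  ψ : Γ' →* Γ
  ψ_injective : Function.Injective ψ
  range_ψ : ψ.range = MulAction.stabilizer Γ x0
  /-- the comparison morphism -/
  τ : Rep.res ψ M ⟶ N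
  τ_π : ∀ m : M.V, τ.hom (S.π x0 m) = τ.hom m
  τ_injOn : ∀ m ∈ S.block x0, τ.hom m = 0 → m = 0
  τ_surjOn : ∀ n : N.V, ∃ m ∈ S.block x0, τ.hom m = n

namespace CompareData

variable {S : ImprimitivitySystem M X} {x0 : X} {Γ' : Type u} [Group Γ'] {N : Rep.{u} k Γ'}
  (D : CompareData S x0 Γ' N)

/-- `ψ` with values in the stabiliser. -/
def ψ' : Γ' →* MulAction.stabilizer Γ x0 :=
  D.ψ.codRestrict _ fun g => by
    rw [← D.range_ψ]
    exact ⟨g, rfl⟩

@[simp] lemma coe_ψ' (g : Γ') : ((D.ψ' g : MulAction.stabilizer Γ x0) : Γ) = D.ψ g := rfl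

lemma ψ'_bijective : Function.Bijective D.ψ' := by
  constructor
  · intro a b hab
    exact D.ψ_injective (congrArg Subtype.val hab)
  · intro h
    have : (h : Γ) ∈ D.ψ.range := by
      rw [D.range_ψ]
      exact h.2
    obtain ⟨g, hg⟩ := this
    exact ⟨g, Subtype.ext hg⟩

/-- The group isomorphism `Γ' ≃* Stab x0`. -/
def ψEquiv : Γ' ≃* MulAction.stabilizer Γ x0 := MulEquiv.ofBijective D.ψ' D.ψ'_bijective

@[simp] lemma ψEquiv_apply (g : Γ') : D.ψEquiv g = D.ψ' g := rfl

/-- `τ` restricted to the block, as a morphism of `Γ'`-representations. -/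
def τ' : Rep.res D.ψ' (S.stabRep x0) ⟶ N :=
  Rep.ofHom
    ⟨D.τ.hom.toLinearMap.comp (S.block x0).subtype, fun g => by
      ext b
      exact Rep.hom_comm_apply D.τ g (b : M.V)⟩

@[simp] lemma τ'_apply (b : S.stabRep x0) : D.τ'.hom b = D.τ.hom (b : M.V) := rfl

lemma τ'_bijective : Function.Bijective D.τ'.hom := by
  constructor
  · rw [injective_iff_map_eq_zero]
    intro b hb
    exact Subtype.ext (D.τ_injOn b.1 b.2 hb)
  · intro n
    obtain ⟨m, hm, hmn⟩ := D.τ_surjOn n
    exact ⟨⟨m, hm⟩, hmn⟩

/-- The linear equivalence `block x0 ≃ N`. -/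
def τEquiv : (S.stabRep x0).V ≃ₗ[k] N.V :=
  LinearEquiv.ofBijective D.τ'.hom.toLinearMap D.τ'_bijective

@[simp] lemma τEquiv_apply (b : S.stabRep x0) : D.τEquiv b = D.τ.hom (b : M.V) := rfl

/-- The inverse of `τ'`, as a morphism of `Stab x0`-representations. -/
def τ'Inv : Rep.res D.ψEquiv.symm.toMonoidHom N ⟶ S.stabRep x0 :=
  Rep.ofHom
    ⟨D.τEquiv.symm.toLinearMap, fun h => by
      ext n
      refine congrArg Subtype.val (?_ : D.τEquiv.symm (N.ρ (D.ψEquiv.symm h) n) =
        (S.stabRep x0).ρ h (D.τEquiv.symm n))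
      apply D.τEquiv.injective
      rw [LinearEquiv.apply_symm_apply]
      have h1 := Rep.hom_comm_apply D.τ' (D.ψEquiv.symm h) (D.τEquiv.symm n)
      have h2 : D.ψ' (D.ψEquiv.symm h) = h := D.ψEquiv.apply_symm_apply h
      change D.τEquiv ((S.stabRep x0).ρ (D.ψ' (D.ψEquiv.symm h)) (D.τEquiv.symm n)) =
        N.ρ (D.ψEquiv.symm h) (D.τEquiv (D.τEquiv.symm n)) at h1
      rw [h2, LinearEquiv.apply_symm_apply] at h1
      exact h1.symm⟩

/-- The comparison map on the cohomology of the stabiliser. -/
def stabMap (n : ℕ) : groupCohomology (S.stabRep x0) n ⟶ groupCohomology N n :=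
  groupCohomology.map D.ψ' D.τ' n

lemma stabMap_injective (n : ℕ) : Function.Injective (D.stabMap n) := by
  have h1 : D.stabMap n ≫ groupCohomology.map D.ψEquiv.symm.toMonoidHom D.τ'Inv n = 𝟙 _ := by
    unfold stabMap
    rw [← groupCohomology.map_comp, ← groupCohomology.map_id]
    refine groupCohomology.map_congr ?_ ?_ n
    · ext h
      exact congrArg Subtype.val (D.ψEquiv.apply_symm_apply h)
    · ext b
      exact congrArg Subtype.val (D.τEquiv.symm_apply_apply b)
  intro x y hxy
  have hx := ConcreteCategory.congr_hom h1 x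
  have hy := ConcreteCategory.congr_hom h1 y
  rw [ConcreteCategory.comp_apply] at hx hy
  rw [hxy] at hx
  exact hx.symm.trans hy

/-- **The comparison map is semilocal Shapiro followed by `stabMap`.** -/
theorem map_eq (n : ℕ) :
    groupCohomology.map D.ψ D.τ n = S.resProjMap x0 n ≫ D.stabMap n := by
  unfold stabMap ImprimitivitySystem.resProjMap
  rw [← groupCohomology.map_comp]
  refine groupCohomology.map_congr ?_ ?_ n
  · ext g
    rfl
  · ext m
    exact (D.τ_π m).symm

theorem map_apply (n : ℕ) (c : groupCohomology M n) :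
    groupCohomology.map D.ψ D.τ n c = D.stabMap n (S.resProjMap x0 n c) := by
  rw [D.map_eq n, ConcreteCategory.comp_apply]

/-- The comparison map kills exactly the classes killed by the semilocal Shapiro map. -/
theorem map_eq_zero_iff (n : ℕ) (c : groupCohomology M n) :
    groupCohomology.map D.ψ D.τ n c = 0 ↔ S.resProjMap x0 n c = 0 := by
  rw [D.map_apply n c]
  constructor
  · intro h
    exact D.stabMap_injective n (h.trans (map_zero _).symm)
  · intro h
    rw [h, map_zero]

end CompareData

/-- **Joint injectivity.**  For a family `r` of orbit representatives of `X` with comparison data at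
every `r i`, a class of `Hⁿ(Γ, M)` killed by all the comparison maps `Hⁿ(Γ, M) ⟶ Hⁿ(Γ' i, N i)`
vanishes. -/
theorem CompareData.eq_zero_of_forall_map_eq_zero (S : ImprimitivitySystem M X)
    {ι : Type*} [Fintype ι] (r : ι → X)
    (hr_surj : ∀ x, ∃ i, x ∈ MulAction.orbit Γ (r i))
    (hr_inj : ∀ i j, r j ∈ MulAction.orbit Γ (r i) → i = j)
    {Γ' : ι → Type u} [∀ i, Group (Γ' i)] {N : ∀ i, Rep.{u} k (Γ' i)}
    (D : ∀ i, CompareData S (r i) (Γ' i) (N i)) (n : ℕ) (c : groupCohomology M n)
    (hc : ∀ i, groupCohomology.map (D i).ψ (D i).τ n c = 0) : c = 0 := by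
  have h1 : ∀ i, S.resProjMap (r i) n c = 0 := fun i => ((D i).map_eq_zero_iff n c).1 (hc i)
  apply (S.bijective_resProjMap r hr_surj hr_inj n).1
  funext i
  change (S.resProjMap (r i) n).hom c = (S.resProjMap (r i) n).hom 0
  rw [map_zero]
  exact h1 i

end Fermat.Agent.CFT.D.H4
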