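/-
PROJECT C, slice D1-h4 (helper4), part A6: PROJECTOR FAMILIES AT A LEVEL.

`J : Rep k G`, `U` a normal subgroup ("level"), `P` a finite `G ⧸ U`-set ("the places of the level
field").  A `ProjFamily J U P` is a complete family of orthogonal idempotent endomorphisms of `J`
permuted by `G` through `G ⧸ U` (for `J = (L ⊗ ℚ_q)ˣ`-like modules: multiplication by the primitive
idempotents).  It induces

* a projector family on `Hom(B, J)` for every `B` (`ProjFamily.hom`);
* a system of imprimitivity (helper19, `CFT/C1`) on the layer `J^U : Rep k (G ⧸ U)`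
  (`ProjFamily.invSystem`).

`LocalData` packages the comparison of the block at a place `x0` with a "local" representation
`Y` of a group `G'` mapping to `G`; it is stable under `Hom(B, -)` (`LocalData.hom`) and yields the
`CompareData` of `ShapiroCompare.lean` for the finite-level map `finMap` of `FinLevel.lean`.
-/
import Fermat.Agent.CFT.A5c.HomCoind
import Fermat.Agent.CFT.D.H4.FinLevel
import Fermat.Agent.CFT.D.H4.HomTriv
import Fermat.Agent.CFT.D.H4.ShapiroCompare

set_option autoImplicit false

universe u

noncomputable section

namespace Fermat.Agent.CFT.D.H4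

open CategoryTheory groupCohomology Fermat.Agent.CFT.LC Fermat.Agent.CFT.A7.HomRep
  Fermat.Agent.CFT.C1

variable {k G : Type u} [CommRing k] [Group G]

/-- A complete family of orthogonal idempotent endomorphisms of the `G`-representation `J`,
indexed by a finite `G ⧸ U`-set `P` and permuted by `G`. -/
structure ProjFamily (J : Rep.{u} k G) (U : Subgroup G) [U.Normal] (P : Type*)
    [MulAction (G ⧸ U) P] [Fintype P] where
  /-- the projector indexed by `x` -/
  p : P → (J.V →ₗ[k] J.V)
  idem : ∀ x a, p x (p x a) = p x a
  ortho : ∀ x y, x ≠ y → ∀ a, p x (p y a) = 0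
  complete : ∀ a, ∑ x, p x a = a
  equivariant : ∀ (g : G) x a, J.ρ g (p x a) = p ((g : G ⧸ U) • x) (J.ρ g a)

namespace ProjFamily

variable {J : Rep.{u} k G} {U : Subgroup G} [U.Normal] {P : Type*} [MulAction (G ⧸ U) P]
  [Fintype P] (F : ProjFamily J U P)

/-- The projectors commute with the action of `U`. -/
lemma ρ_p_of_mem {u : G} (hu : u ∈ U) (x : P) (a : J.V) : J.ρ u (F.p x a) = F.p x (J.ρ u a) := by
  have h := F.equivariant u x a
  rwa [(QuotientGroup.eq_one_iff u).2 hu, one_smul] at h

/-- The projectors preserve the `U`-invariants. -/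
lemma p_mem_invariants (x : P) (a : J.quotientToInvariants U) (u : U) :
    J.ρ (u : G) (F.p x a.1) = F.p x a.1 := by
  rw [F.ρ_p_of_mem u.2]
  exact congrArg (F.p x) (a.2 u)

/-- The induced projector family on `Hom(B, J)`: post-composition. -/
def hom (B : Rep.{u} k G) : ProjFamily (homRep B J) U P where
  p x := (toLin (P := B) (X := J)).symm.toLinearMap ∘ₗ LinearMap.compRight k (F.p x) ∘ₗ
    (toLin (P := B) (X := J)).toLinearMap
  idem x f := homRep_ext fun b => F.idem x _
  ortho x y hxy f := homRep_ext fun b => F.ortho x y hxy _
  complete f := by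
    apply homRep_ext
    intro b
    rw [map_sum, LinearMap.sum_apply]
    exact F.complete (toLin f b)
  equivariant g x f := homRep_ext fun b => F.equivariant g x _

@[simp] lemma hom_p_apply (B : Rep.{u} k G) (x : P) (f : (homRep B J).V) (b : B.V) :
    toLin ((F.hom B).p x f) b = F.p x (toLin f b) := rfl

/-- The induced system of imprimitivity on the layer `J^U`. -/
def invSystem : ImprimitivitySystem (J.quotientToInvariants U) P where
  π x :=
    { toFun := fun a => ⟨F.p x a.1, F.p_mem_invariants x a⟩
      map_add' := fun a b => Subtype.ext (map_add (F.p x) a.1 b.1)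
      map_smul' := fun c a => Subtype.ext (map_smul (F.p x) c a.1) }
  idem x a := Subtype.ext (F.idem x a.1)
  ortho x y hxy a := Subtype.ext (F.ortho x y hxy a.1)
  complete a := by
    apply Subtype.ext
    rw [AddSubmonoidClass.coe_finsetSum]
    exact F.complete a.1
  equivariant c x a := by
    induction c using QuotientGroup.induction_on with
    | H g => exact Subtype.ext (F.equivariant g x a.1)

@[simp] lemma invSystem_π_coe (x : P) (a : J.quotientToInvariants U) :
    ((F.invSystem.π x a).1 : J.V) = F.p x a.1 := rfl

lemma mem_block_invSystem_iff (x : P) (a : J.quotientToInvariants U) :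
    a ∈ F.invSystem.block x ↔ F.p x a.1 = a.1 := by
  rw [ImprimitivitySystem.mem_block_iff]
  constructor
  · intro h
    exact congrArg Subtype.val h
  · intro h
    exact Subtype.ext h

end ProjFamily

end Fermat.Agent.CFT.D.H4
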