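/-
PROJECT C, slice D1-h4 (helper4), part A6b: LOCAL DATA at a place of a level.

`LocalData F x0 φ V hVU π`: for a projector family `F` on `J` at the level `U`, a place `x0`, a
homomorphism `φ : G' →* G`, a level `V ≤ φ⁻¹ U` of `G'` and `π : Rep.res φ J ⟶ Y`:
* `G' ⧸ V → G ⧸ U` is injective with image the stabiliser of `x0` (decomposition group);
* `π` factors through the projector `p x0` and restricts to a bijection from the block
  `{a ∈ J^U | p x0 a = a}` onto `Y^V`.
It gives `CompareData` for the finite-level map (`LocalData.compareData`) and is stable under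
`Hom(B, -)` when `U` acts trivially on `B` (`LocalData.hom`).
-/
import Fermat.Agent.CFT.D.H4.ProjFamily

set_option autoImplicit false

universe u

noncomputable section

namespace Fermat.Agent.CFT.D.H4

open CategoryTheory groupCohomology Fermat.Agent.CFT.LC Fermat.Agent.CFT.A7.HomRep
  Fermat.Agent.CFT.C1

variable {k G G' : Type u} [CommRing k] [Group G] [Group G']

/-- `Hom(B, J) → Hom(Res B, Y)`, `f ↦ π ∘ f`, as a morphism of `G'`-representations. -/
def homPush (φ : G' →* G) (B : Rep.{u} k G) {J : Rep.{u} k G} {Y : Rep.{u} k G'}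
    (π : Rep.res φ J ⟶ Y) : Rep.res φ (homRep B J) ⟶ homRep (Rep.res φ B) Y :=
  (Fermat.Agent.CFT.A5c.resIhomIso φ B J).hom ≫ homMap (Rep.res φ B) π

@[simp] lemma toLin_homPush (φ : G' →* G) (B : Rep.{u} k G) {J : Rep.{u} k G} {Y : Rep.{u} k G'}
    (π : Rep.res φ J ⟶ Y) (f : (homRep B J).V) (b : B.V) :
    toLin ((homPush φ B π).hom f) b = π.hom (toLin f b) := rfl

variable {J : Rep.{u} k G} {U : Subgroup G} [U.Normal] {P : Type*} [MulAction (G ⧸ U) P]
  [Fintype P]

/-- Comparison of the block of a projector family at `x0` with a representation `Y` of `G'`. -/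
structure LocalData (F : ProjFamily J U P) (x0 : P) (φ : G' →* G) (V : Subgroup G') [V.Normal]
    (hVU : V ≤ U.comap φ) {Y : Rep.{u} k G'} (π : Rep.res φ J ⟶ Y) : Prop where
  quot_injective : Function.Injective (quotHom φ U V hVU)
  range_quot : (quotHom φ U V hVU).range = MulAction.stabilizer (G ⧸ U) x0
  π_p : ∀ a : J.V, π.hom (F.p x0 a) = π.hom a
  injOn : ∀ a : J.V, (∀ u ∈ U, J.ρ u a = a) → F.p x0 a = a → π.hom a = 0 → a = 0
  surjOn : ∀ y : Y.V, (∀ v ∈ V, Y.ρ v y = y) →
    ∃ a : J.V, (∀ u ∈ U, J.ρ u a = a) ∧ F.p x0 a = a ∧ π.hom a = y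

namespace LocalData

variable {F : ProjFamily J U P} {x0 : P} {φ : G' →* G} {V : Subgroup G'} [V.Normal]
  {hVU : V ≤ U.comap φ} {Y : Rep.{u} k G'} {π : Rep.res φ J ⟶ Y}

/-- The `CompareData` of the finite-level map `finMap φ π U V hVU`. -/
def compareData (L : LocalData F x0 φ V hVU π) :
    CompareData F.invSystem x0 (G' ⧸ V) (Y.quotientToInvariants V) where
  ψ := quotHom φ U V hVU
  ψ_injective := L.quot_injective
  range_ψ := L.range_quot
  τ := invMap φ π U V hVU
  τ_π a := Subtype.ext (L.π_p a.1)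
  τ_injOn a ha h0 := by
    apply Subtype.ext
    exact L.injOn a.1 (fun u hu => a.2 ⟨u, hu⟩) ((F.mem_block_invSystem_iff x0 a).1 ha)
      (congrArg Subtype.val h0)
  τ_surjOn y := by
    obtain ⟨a, haU, hap, hay⟩ := L.surjOn y.1 (fun v hv => y.2 ⟨v, hv⟩)
    exact ⟨⟨a, fun u => haU u u.2⟩, (F.mem_block_invSystem_iff x0 _).2 hap, Subtype.ext hay⟩

lemma compareData_ψ (L : LocalData F x0 φ V hVU π) : L.compareData.ψ = quotHom φ U V hVU := rfl

lemma compareData_τ (L : LocalData F x0 φ V hVU π) : L.compareData.τ = invMap φ π U V hVU := rfl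

/-- The finite-level map kills exactly the classes killed by semilocal Shapiro at `x0`. -/
theorem finMap_eq_zero_iff (L : LocalData F x0 φ V hVU π) (n : ℕ)
    (c : groupCohomology (J.quotientToInvariants U) n) :
    finMap φ π U V hVU n c = 0 ↔ F.invSystem.resProjMap x0 n c = 0 :=
  L.compareData.map_eq_zero_iff n c

/-- The block at `x0` inside `J^U`, as a submodule of `J`. -/
def blockSub (F : ProjFamily J U P) (x0 : P) : Submodule k J.V where
  carrier := {a | (∀ u ∈ U, J.ρ u a = a) ∧ F.p x0 a = a}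
  add_mem' := fun {a b} ha hb =>
    ⟨fun u hu => by rw [map_add, ha.1 u hu, hb.1 u hu], by rw [map_add, ha.2, hb.2]⟩
  zero_mem' := ⟨fun u _ => map_zero _, map_zero _⟩
  smul_mem' := fun c {a} ha =>
    ⟨fun u hu => by rw [map_smul, ha.1 u hu], by rw [map_smul, ha.2]⟩

/-- The `V`-invariants of `Y`, as a submodule. -/
def invSub (V : Subgroup G') (Y : Rep.{u} k G') : Submodule k Y.V where
  carrier := {y | ∀ v ∈ V, Y.ρ v y = y}
  add_mem' := fun {a b} ha hb v hv => by rw [map_add, ha v hv, hb v hv]
  zero_mem' := fun v _ => map_zero _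
  smul_mem' := fun c {a} ha v hv => by rw [map_smul, ha v hv]

omit [U.Normal] [V.Normal] in
include hVU in
lemma π_mem_invSub (a : J.V) (ha : ∀ u ∈ U, J.ρ u a = a) : π.hom a ∈ invSub V Y := by
  intro v hv
  have h1 := Rep.hom_comm_apply π v a
  have h2 : (Rep.res φ J).ρ v a = a := ha (φ v) (hVU hv)
  rw [h2] at h1
  exact h1.symm

/-- `π` from the block to the invariants. -/
def blockMap (F : ProjFamily J U P) (x0 : P) (hVU : V ≤ U.comap φ) (π : Rep.res φ J ⟶ Y) :
    blockSub F x0 →ₗ[k] invSub V Y where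
  toFun a := ⟨π.hom a.1, π_mem_invSub (hVU := hVU) a.1 a.2.1⟩
  map_add' a b := Subtype.ext (map_add π.hom a.1 b.1)
  map_smul' c a := Subtype.ext (map_smul π.hom c a.1)

lemma blockMap_bijective (L : LocalData F x0 φ V hVU π) :
    Function.Bijective (blockMap F x0 hVU π) := by
  constructor
  · rw [injective_iff_map_eq_zero]
    intro a ha
    exact Subtype.ext (L.injOn a.1 a.2.1 a.2.2 (congrArg Subtype.val ha))
  · intro y
    obtain ⟨a, haU, hap, hay⟩ := L.surjOn y.1 y.2
    exact ⟨⟨a, haU, hap⟩, Subtype.ext hay⟩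

/-- The linear section `Y^V → J` of `π` with values in the block at `x0`. -/
def section_ (L : LocalData F x0 φ V hVU π) : invSub V Y →ₗ[k] J.V :=
  (blockSub F x0).subtype ∘ₗ
    (LinearEquiv.ofBijective (blockMap F x0 hVU π) L.blockMap_bijective).symm.toLinearMap

lemma section_mem (L : LocalData F x0 φ V hVU π) (y : invSub V Y) :
    L.section_ y ∈ blockSub F x0 :=
  ((LinearEquiv.ofBijective (blockMap F x0 hVU π) L.blockMap_bijective).symm y).2

lemma π_section (L : LocalData F x0 φ V hVU π) (y : invSub V Y) :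
    π.hom (L.section_ y) = y.1 := by
  have h := (LinearEquiv.ofBijective (blockMap F x0 hVU π) L.blockMap_bijective).apply_symm_apply y
  exact congrArg Subtype.val h

/-- **Local data are stable under `Hom(B, -)`** when the level `U` acts trivially on `B`. -/
theorem hom (L : LocalData F x0 φ V hVU π) (B : Rep.{u} k G)
    (hB : ∀ u ∈ U, ∀ b : B.V, B.ρ u b = b) :
    LocalData (F.hom B) x0 φ V hVU (homPush φ B π) where
  quot_injective := L.quot_injective
  range_quot := L.range_quot
  π_p f := homRep_ext fun b => L.π_p (toLin f b)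
  injOn f hfU hfp hf0 := by
    apply homRep_ext
    intro b
    refine L.injOn (toLin f b) (fun u hu => ?_) ?_ ?_
    · have h1 := (ρ_eq_self_iff B J u f).1 (hfU u hu) b
      rw [hB u hu b] at h1
      exact h1.symm
    · exact congrArg (fun g : (homRep B J).V => toLin g b) hfp
    · exact congrArg (fun g : (homRep (Rep.res φ B) Y).V => toLin g b) hf0
  surjOn h hh := by
    have hval : ∀ b : B.V, toLin h b ∈ invSub V Y := by
      intro b v hv
      have h1 := (ρ_eq_self_iff (Rep.res φ B) Y v h).1 (hh v hv) b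
      have h2 : (Rep.res φ B).ρ v b = b := hB (φ v) (hVU hv) b
      rw [h2] at h1
      exact h1.symm
    let h' : B.V →ₗ[k] invSub V Y := (toLin h).codRestrict (invSub V Y) hval
    refine ⟨toLin.symm (L.section_ ∘ₗ h'), fun u hu => ?_, ?_, ?_⟩
    · rw [ρ_eq_self_iff]
      intro b
      rw [hB u hu b]
      exact ((L.section_mem (h' b)).1 u hu).symm
    · apply homRep_ext
      intro b
      exact (L.section_mem (h' b)).2
    · apply homRep_ext
      intro b
      exact L.π_section (h' b)

end LocalData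

end Fermat.Agent.CFT.D.H4
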