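/-
PROJECT C, slice D1-h4 (helper4), part A8: THE ABSTRACT FORM OF HYPOTHESIS (h4) OF D-PLAN v1.

`G` with levels `𝒰`, a smooth "global" representation `J`, for every place `v` a group `Gv v` with
levels `𝒰v v`, a continuous `φ v : Gv v →* G`, a "local" representation `Y v` and
`π v : Rep.res (φ v) J ⟶ Y v`.  `LevelData` at a level `U` is the arithmetic input: a finite
`G ⧸ U`-set of places with a projector family on `J`, orbit representatives `r v` and `LocalData`
(decomposition group = local Galois group, block = local module) at every `r v`.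

THEOREMS (`B` any representation on which some level acts trivially):
* `h4_one`: the maps `H¹_LC(G, Hom(B, J)) → H¹_LC(Gv v, Hom(B, Y v))` are jointly injective;
* `h4_two`: the maps `H²_LC(G, Hom(B, J)) → H²_LC(Gv v, Hom(B, Y v))` are jointly injective if `B` is
  `k`-free and Hilbert 90 holds for the layers of every `Y v`.
These are exactly `(h4b)` and `(h4a)` of `D/ShaTwo.lean` (`exists_bdry_eq`).
-/
import Fermat.Agent.CFT.D.H4.LocalData

set_option autoImplicit false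

universe u w

noncomputable section

namespace Fermat.Agent.CFT.D.H4

open CategoryTheory groupCohomology Fermat.Agent.CFT.LC Fermat.Agent.CFT.A7.HomRep
  Fermat.Agent.CFT.C1 Fermat.Agent.CFT.InfRes2

variable {k G : Type u} [CommRing k] [Group G] {ι : Type*} {Gv : ι → Type u}
  [∀ v, Group (Gv v)]

/-- The arithmetic input of `(h4)` at a level `U`. -/
structure LevelData (J : Rep.{u} k G) (φ : ∀ v, Gv v →* G) (𝒰v : ∀ v, Levels (Gv v))
    {Y : ∀ v, Rep.{u} k (Gv v)} (π : ∀ v, Rep.res (φ v) J ⟶ Y v) (U : Subgroup G)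
    [U.Normal] where
  /-- the places of the level field -/
  P : Type w
  [fintype : Fintype P]
  [action : MulAction (G ⧸ U) P]
  /-- the projector family -/
  F : ProjFamily J U P
  /-- the chosen place above `v` -/
  r : ι → P
  r_surj : ∀ x, ∃ i, x ∈ MulAction.orbit (G ⧸ U) (r i)
  r_inj : ∀ i j, r j ∈ MulAction.orbit (G ⧸ U) (r i) → i = j
  /-- the local level -/
  V : ∀ v, Subgroup (Gv v)
  normal : ∀ v, (V v).Normal
  mem : ∀ v, V v ∈ (𝒰v v).sets
  le : ∀ v, V v ≤ U.comap (φ v)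
  loc : ∀ v, LocalData F (r v) (φ v) (V v) (le v) (π v)

attribute [instance] LevelData.fintype LevelData.action LevelData.normal

variable {J : Rep.{u} k G} {φ : ∀ v, Gv v →* G} {𝒰 : Levels G} {𝒰v : ∀ v, Levels (Gv v)}
  {Y : ∀ v, Rep.{u} k (Gv v)} {π : ∀ v, Rep.res (φ v) J ⟶ Y v}

/-- Joint injectivity at a finite level, with `Hom(B, -)` coefficients. -/
theorem LevelData.eq_zero_of_forall_finMap_eq_zero [Fintype ι] {U : Subgroup G} [U.Normal]
    (D : LevelData.{u, w} J φ 𝒰v π U) (B : Rep.{u} k G) (hB : ∀ u ∈ U, ∀ b : B.V, B.ρ u b = b)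
    (n : ℕ) (y : groupCohomology ((homRep B J).quotientToInvariants U) n)
    (hy : ∀ v, finMap (φ v) (homPush (φ v) B (π v)) U (D.V v) (D.le v) n y = 0) : y = 0 :=
  CompareData.eq_zero_of_forall_map_eq_zero (D.F.hom B).invSystem D.r D.r_surj D.r_inj
    (fun v => ((D.loc v).hom B hB).compareData) n y hy

section Main

variable [Fintype ι] (hφ : ∀ v, Levels.Continuous (φ v) (𝒰v v) 𝒰)
  (B : Rep.{u} k G) (U₁ : Subgroup G) (hU₁ : U₁ ∈ 𝒰.sets)
  (hB : ∀ u ∈ U₁, ∀ b : B.V, B.ρ u b = b)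
  (hdata : ∀ U₀ ∈ 𝒰.sets, ∃ (U : Subgroup G) (_ : U.Normal) (_ : U ∈ 𝒰.sets) (_ : U ≤ U₀),
    Nonempty (LevelData.{u, w} J φ 𝒰v π U))

include hU₁ hB hdata in
/-- **(h4b)**: joint injectivity on `H¹_LC(G, Hom(B, J))`. -/
theorem h4_one (x : H 𝒰 (homRep B J) 1)
    (hx : ∀ v, LC.map (hφ v) (homPush (φ v) B (π v)) 1 x = 0) : x = 0 := by
  refine eq_zero_of_forall_map_eq_zero_of_finLevel (fun v => homPush (φ v) B (π v)) hφ 1 ?_ x hx
  intro U₀ hU₀
  obtain ⟨U₂, hU₂, hU₂le⟩ := 𝒰.directed U₀ hU₀ U₁ hU₁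
  obtain ⟨U, hN, hU, hUle, ⟨D⟩⟩ := hdata U₂ hU₂
  have hBU : ∀ u ∈ U, ∀ b : B.V, B.ρ u b = b := fun u hu =>
    hB u ((hUle.trans hU₂le).trans inf_le_right hu)
  refine ⟨U, hN, hU, (hUle.trans hU₂le).trans inf_le_left, D.V, D.normal, D.mem, D.le, ?_, ?_⟩
  · exact D.eq_zero_of_forall_finMap_eq_zero B hBU 1
  · intro v
    exact infl_one_injective _ (𝒰v v) (D.V v) (D.mem v)

include hU₁ hB hdata in
/-- **(h4a)**: joint injectivity on `H²_LC(G, Hom(B, J))`, for a `k`-free `B`, when Hilbert 90 holds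
for all the layers of the local representations `Y v`. -/
theorem h4_two [Module.Free k B.V]
    (h90 : ∀ v (V W : Subgroup (Gv v)) (_ : V.Normal) (_ : W.Normal), V ∈ (𝒰v v).sets →
      W ∈ (𝒰v v).sets → W ≤ V → H1Vanishes ((Y v).quotientToInvariants W) (layer V W))
    (x : H 𝒰 (homRep B J) 2)
    (hx : ∀ v, LC.map (hφ v) (homPush (φ v) B (π v)) 2 x = 0) : x = 0 := by
  refine eq_zero_of_forall_map_eq_zero_of_finLevel (fun v => homPush (φ v) B (π v)) hφ 2 ?_ x hx
  intro U₀ hU₀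
  obtain ⟨U₂, hU₂, hU₂le⟩ := 𝒰.directed U₀ hU₀ U₁ hU₁
  obtain ⟨U, hN, hU, hUle, ⟨D⟩⟩ := hdata U₂ hU₂
  have hBU : ∀ u ∈ U, ∀ b : B.V, B.ρ u b = b := fun u hu =>
    hB u ((hUle.trans hU₂le).trans inf_le_right hu)
  refine ⟨U, hN, hU, (hUle.trans hU₂le).trans inf_le_left, D.V, D.normal, D.mem, D.le, ?_, ?_⟩
  · exact D.eq_zero_of_forall_finMap_eq_zero B hBU 2
  · intro v
    have : Module.Free k (Rep.res (φ v) B).V := ‹Module.Free k B.V›
    refine infl_two_injective_homRep (Rep.res (φ v) B) (Y v) (𝒰v v) (D.V v) (D.mem v) ?_ ?_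
    · intro g hg b
      exact hBU (φ v g) (D.le v hg) b
    · intro W hNW hW hWV
      exact h90 v (D.V v) W (D.normal v) hNW (D.mem v) hW hWV

end Main

end Fermat.Agent.CFT.D.H4
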