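/-
PROJECT C, slice D1-h4 (helper4), part B3: BASE CHANGE OF THE (h4) DATA ALONG A LOCALISATION `R → k`.

`X : Rep R G`, `XK : Rep k G` with `hf : IsLocRep M X XK f` (helper9), elements of `M` invertible in
`k` (`hM`).  Given projectors `pK x` on `XK` extending those of a `ProjFamily` on `X`, and
`πK : Rep.res φ XK ⟶ YK` extending `π : Rep.res φ X ⟶ Y`:

* `IsLocRep.linearMap_ext` : `k`-linear maps out of `XK` are determined on the image of `f`;
* `ProjFamily.baseChange`, `LocalData.baseChange`, `LevelData.baseChange`;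
* the tensor model: `tensorMapRes φ π : Rep.res φ (tensorRep X) ⟶ tensorRep Y`,
  `LevelData.tensor`, and **`hdata_tensor`** : `hdata` for `(X, π)` gives `hdata` for
  `(tensorRep X, tensorMapRes φ π)` when `X`, `Y v` are smooth for level families of finite index.
-/
import Fermat.Agent.CFT.D.H4.Main
import Fermat.Agent.CFT.A7.ClassFormationBaseChange
import Fermat.Agent.CFT.A7.BaseChangeExact

set_option autoImplicit false

open CategoryTheory TensorProduct
open Fermat.Agent.CFT.LC Fermat.Agent.CFT.A7.BaseChange Fermat.Agent.CFT.A7.CFBaseChange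

noncomputable section

namespace Fermat.Agent.CFT.D.H4

variable {R k : Type} [CommRing R] [CommRing k] [Algebra R k] {M : Submonoid R}
  {G G' : Type} [Group G] [Group G']
  {X : Rep.{0} R G} {XK : Rep.{0} k G} {f : X.V →+ XK.V}

/-- `k`-linear maps out of a localisation are determined on the image of `f`. -/
theorem _root_.Fermat.Agent.CFT.A7.BaseChange.IsLocRep.linearMap_ext (hf : IsLocRep M X XK f)
    (hM : ∀ s ∈ M, IsUnit (algebraMap R k s)) {Z : Type*} [AddCommGroup Z] [Module k Z]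
    {g g' : XK.V →ₗ[k] Z} (h : ∀ x, g (f x) = g' (f x)) : g = g' := by
  apply LinearMap.ext
  intro y
  obtain ⟨s, hs, x, hx⟩ := hf.surj y
  have h1 : algebraMap R k s • g y = algebraMap R k s • g' y := by
    rw [← map_smul, ← map_smul, hx, h]
  exact (hM s hs).smul_left_cancel.1 h1

section Proj

variable {U : Subgroup G} [U.Normal] {P : Type*} [MulAction (G ⧸ U) P] [Fintype P]

/-- Base change of a projector family, given the extended projectors. -/
def ProjFamily.baseChange (F : ProjFamily X U P) (hf : IsLocRep M X XK f)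
    (hM : ∀ s ∈ M, IsUnit (algebraMap R k s)) (pK : P → (XK.V →ₗ[k] XK.V))
    (hp : ∀ x a, pK x (f a) = f (F.p x a)) : ProjFamily XK U P where
  p := pK
  idem x y := by
    have h : pK x ∘ₗ pK x = pK x := hf.linearMap_ext hM fun a => by
      rw [LinearMap.comp_apply, hp, hp, F.idem]
    exact LinearMap.congr_fun h y
  ortho x y hxy a := by
    have h : pK x ∘ₗ pK y = 0 := hf.linearMap_ext hM fun a => by
      rw [LinearMap.comp_apply, hp, hp, F.ortho x y hxy, map_zero, LinearMap.zero_apply]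
    exact LinearMap.congr_fun h a
  complete a := by
    have h : ∑ x, pK x = LinearMap.id := hf.linearMap_ext hM fun a => by
      rw [LinearMap.sum_apply, LinearMap.id_apply]
      simp only [hp]
      rw [← map_sum, F.complete]
    have h2 := LinearMap.congr_fun h a
    rwa [LinearMap.sum_apply, LinearMap.id_apply] at h2
  equivariant g x a := by
    have h : XK.ρ g ∘ₗ pK x = pK ((g : G ⧸ U) • x) ∘ₗ XK.ρ g := hf.linearMap_ext hM fun a => by
      rw [LinearMap.comp_apply, LinearMap.comp_apply, hp, ← hf.map_ρ, ← hf.map_ρ, hp,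
        F.equivariant]
    exact LinearMap.congr_fun h a

@[simp] lemma ProjFamily.baseChange_p (F : ProjFamily X U P) (hf : IsLocRep M X XK f)
    (hM : ∀ s ∈ M, IsUnit (algebraMap R k s)) (pK : P → (XK.V →ₗ[k] XK.V))
    (hp : ∀ x a, pK x (f a) = f (F.p x a)) (x : P) :
    (F.baseChange hf hM pK hp).p x = pK x := rfl

/-- The invariants of a normal subgroup in a localisation of a smooth module, elementwise. -/
theorem exists_invariant_of_isLocRep (hf : IsLocRep M X XK f) (𝒰 : Levels G)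
    (hfin : ∀ W ∈ 𝒰.sets, W.FiniteIndex) (hsm : IsSmooth 𝒰 X) (U : Subgroup G) [U.Normal]
    (y : XK.V) (hy : ∀ u ∈ U, XK.ρ u y = y) :
    ∃ s ∈ M, ∃ a : X.V, (∀ u ∈ U, X.ρ u a = a) ∧ algebraMap R k s • y = f a := by
  obtain ⟨s, hs, a, ha⟩ := (isLocRep_invariants hf 𝒰 hfin hsm U).surj ⟨y, fun u => hy u u.2⟩
  refine ⟨s, hs, a.1, fun u hu => a.2 ⟨u, hu⟩, ?_⟩
  exact congrArg Subtype.val ha

variable {Y : Rep.{0} R G'} {YK : Rep.{0} k G'} {f' : Y.V →+ YK.V}

/-- **Base change of local data.** -/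
theorem LocalData.baseChange {F : ProjFamily X U P} {x0 : P} {φ : G' →* G} {V : Subgroup G'}
    [V.Normal] {hVU : V ≤ U.comap φ} {π : Rep.res φ X ⟶ Y} (L : LocalData F x0 φ V hVU π)
    (hf : IsLocRep M X XK f) (hf' : IsLocRep M Y YK f')
    (hM : ∀ s ∈ M, IsUnit (algebraMap R k s)) (pK : P → (XK.V →ₗ[k] XK.V))
    (hp : ∀ x a, pK x (f a) = f (F.p x a)) (πK : Rep.res φ XK ⟶ YK)
    (hπ : ∀ a, πK.hom (f a) = f' (π.hom a))
    (hinvX : ∀ y : XK.V, (∀ u ∈ U, XK.ρ u y = y) →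
      ∃ s ∈ M, ∃ a : X.V, (∀ u ∈ U, X.ρ u a = a) ∧ algebraMap R k s • y = f a)
    (hinvY : ∀ z : YK.V, (∀ v ∈ V, YK.ρ v z = z) →
      ∃ s ∈ M, ∃ b : Y.V, (∀ v ∈ V, Y.ρ v b = b) ∧ algebraMap R k s • z = f' b) :
    LocalData (F.baseChange hf hM pK hp) x0 φ V hVU πK where
  quot_injective := L.quot_injective
  range_quot := L.range_quot
  π_p y := by
    have h : πK.hom.toLinearMap ∘ₗ pK x0 = πK.hom.toLinearMap := hf.linearMap_ext hM fun a => by
      rw [LinearMap.comp_apply, hp]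
      exact (hπ _).trans ((congrArg f' (L.π_p a)).trans (hπ a).symm)
    exact LinearMap.congr_fun h y
  injOn y hyU hyp hy0 := by
    obtain ⟨s, hs, a, haU, ha⟩ := hinvX y hyU
    have hp0 : pK x0 y = y := hyp
    -- replace `a` by its component in the block
    set a' := F.p x0 a with ha'
    have ha'U : ∀ u ∈ U, X.ρ u a' = a' := fun u hu => by
      rw [ha', F.ρ_p_of_mem hu, haU u hu]
    have hfa' : f a' = algebraMap R k s • y := by
      rw [ha', ← hp, ← ha, map_smul, hp0]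
    have hπa' : f' (π.hom a') = 0 := by
      rw [← hπ, hfa', map_smul]
      have : πK.hom y = 0 := hy0
      rw [this, smul_zero]
    obtain ⟨t, ht, hta⟩ := hf'.eq_zero _ hπa'
    have hblock : F.p x0 (t • a') = t • a' := by rw [map_smul, ha', F.idem]
    have h0 : t • a' = 0 := by
      refine L.injOn (t • a') (fun u hu => ?_) hblock ?_
      · rw [map_smul, ha'U u hu]
      · rw [map_smul]
        exact hta
    have h1 : algebraMap R k (t * s) • y = 0 := by
      rw [map_mul, mul_smul, ← hfa', ← hf.map_smul, h0, map_zero]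
    have hu : IsUnit (algebraMap R k (t * s)) := hM _ (M.mul_mem ht hs)
    exact (hu.smul_left_cancel (y := (0 : XK.V))).1 (by rw [h1, smul_zero])
  surjOn z hz := by
    obtain ⟨s, hs, b, hbV, hb⟩ := hinvY z hz
    obtain ⟨a, haU, hap, hab⟩ := L.surjOn b hbV
    obtain ⟨c, hc⟩ := hM s hs
    refine ⟨(↑c⁻¹ : k) • f a, fun u hu => ?_, ?_, ?_⟩
    · rw [map_smul, ← hf.map_ρ, haU u hu]
    · change pK x0 ((↑c⁻¹ : k) • f a) = (↑c⁻¹ : k) • f a
      rw [map_smul, hp, hap]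
    · have h1 : πK.hom ((↑c⁻¹ : k) • f a) = (↑c⁻¹ : k) • πK.hom (f a) := map_smul _ _ _
      rw [h1, hπ, hab, ← hb, ← hc, smul_smul, Units.inv_mul, one_smul]

end Proj

/-! ### Level data -/

section Level

variable {ι : Type*} {Gv : ι → Type} [∀ v, Group (Gv v)] {φ : ∀ v, Gv v →* G}
  {𝒰v : ∀ v, Levels (Gv v)} {Y : ∀ v, Rep.{0} R (Gv v)} {YK : ∀ v, Rep.{0} k (Gv v)}
  {f' : ∀ v, (Y v).V →+ (YK v).V} {π : ∀ v, Rep.res (φ v) X ⟶ Y v}
  {U : Subgroup G} [U.Normal]

/-- **Base change of level data**, given the extended projectors and local morphisms. -/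
def LevelData.baseChange (D : LevelData.{0, 0} X φ 𝒰v π U)
    (hf : IsLocRep M X XK f) (hf' : ∀ v, IsLocRep M (Y v) (YK v) (f' v))
    (hM : ∀ s ∈ M, IsUnit (algebraMap R k s)) (pK : D.P → (XK.V →ₗ[k] XK.V))
    (hp : ∀ x a, pK x (f a) = f (D.F.p x a)) (πK : ∀ v, Rep.res (φ v) XK ⟶ YK v)
    (hπ : ∀ v a, (πK v).hom (f a) = f' v ((π v).hom a))
    (hinvX : ∀ y : XK.V, (∀ u ∈ U, XK.ρ u y = y) →
      ∃ s ∈ M, ∃ a : X.V, (∀ u ∈ U, X.ρ u a = a) ∧ algebraMap R k s • y = f a)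
    (hinvY : ∀ v (z : (YK v).V), (∀ w ∈ D.V v, (YK v).ρ w z = z) →
      ∃ s ∈ M, ∃ b : (Y v).V, (∀ w ∈ D.V v, (Y v).ρ w b = b) ∧
        algebraMap R k s • z = f' v b) :
    LevelData.{0, 0} XK φ 𝒰v πK U where
  P := D.P
  F := D.F.baseChange hf hM pK hp
  r := D.r
  r_surj := D.r_surj
  r_inj := D.r_inj
  V := D.V
  normal := D.normal
  mem := D.mem
  le := D.le
  loc := fun v => (D.loc v).baseChange hf (hf' v) hM pK hp (πK v) (hπ v) hinvX (hinvY v)

end Level

/-! ### The tensor model -/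

section Tensor

variable (k)

/-- The morphism `Res (k ⊗ X) ⟶ k ⊗ Y` induced by `π : Res X ⟶ Y`. -/
def tensorMapRes (φ : G' →* G) {X : Rep.{0} R G} {Y : Rep.{0} R G'} (π : Rep.res φ X ⟶ Y) :
    Rep.res φ (tensorRep (k := k) X) ⟶ tensorRep (k := k) Y :=
  Rep.ofHom ⟨LinearMap.baseChange k π.hom.toLinearMap,
    fun g => (tensorMap k π).hom.isIntertwining' g⟩

theorem tensorMapRes_tmul (φ : G' →* G) {X : Rep.{0} R G} {Y : Rep.{0} R G'}
    (π : Rep.res φ X ⟶ Y) (c : k) (x : X.V) :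
    (tensorMapRes k φ π).hom (c ⊗ₜ x) = c ⊗ₜ π.hom x :=
  LinearMap.baseChange_tmul _ c x

theorem tensorMapRes_toTensorRep (φ : G' →* G) {X : Rep.{0} R G} {Y : Rep.{0} R G'}
    (π : Rep.res φ X ⟶ Y) (x : X.V) :
    (tensorMapRes k φ π).hom (toTensorRep (k := k) X x) = toTensorRep (k := k) Y (π.hom x) :=
  tensorMapRes_tmul k φ π 1 x

variable {k}

variable {ι : Type*} {Gv : ι → Type} [∀ v, Group (Gv v)] {φ : ∀ v, Gv v →* G}
  {𝒰 : Levels G} {𝒰v : ∀ v, Levels (Gv v)} {X : Rep.{0} R G} {Y : ∀ v, Rep.{0} R (Gv v)}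
  {π : ∀ v, Rep.res (φ v) X ⟶ Y v} {U : Subgroup G} [U.Normal]

variable (M) in
/-- **Level data for the tensor model** `k ⊗ X`, `k ⊗ Y v`. -/
def LevelData.tensor [IsLocalization M k] (D : LevelData.{0, 0} X φ 𝒰v π U)
    (hfin : ∀ W ∈ 𝒰.sets, W.FiniteIndex) (hsm : IsSmooth 𝒰 X)
    (hfinv : ∀ v, ∀ W ∈ (𝒰v v).sets, W.FiniteIndex) (hsmv : ∀ v, IsSmooth (𝒰v v) (Y v)) :
    LevelData.{0, 0} (tensorRep (k := k) X) φ 𝒰v (fun v => tensorMapRes k (φ v) (π v)) U :=
  D.baseChange (isLocRep_tensorRep M X) (fun v => isLocRep_tensorRep M (Y v))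
    (fun s hs => IsLocalization.map_units k ⟨s, hs⟩)
    (fun x => (D.F.p x).baseChange k)
    (fun _ a => LinearMap.baseChange_tmul _ 1 a)
    (fun v => tensorMapRes k (φ v) (π v))
    (fun v a => tensorMapRes_toTensorRep k (φ v) (π v) a)
    (exists_invariant_of_isLocRep (isLocRep_tensorRep M X) 𝒰 hfin hsm U)
    (fun v => exists_invariant_of_isLocRep (isLocRep_tensorRep M (Y v)) (𝒰v v) (hfinv v)
      (hsmv v) (D.V v))

variable (M) in
/-- **`hdata` passes to the tensor model.** -/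
theorem hdata_tensor [IsLocalization M k] [𝒰.IsFin] [∀ v, (𝒰v v).IsFin]
    (hsm : IsSmooth 𝒰 X) (hsmv : ∀ v, IsSmooth (𝒰v v) (Y v))
    (hdata : ∀ U₀ ∈ 𝒰.sets, ∃ (U : Subgroup G) (_ : U.Normal) (_ : U ∈ 𝒰.sets) (_ : U ≤ U₀),
      Nonempty (LevelData.{0, 0} X φ 𝒰v π U)) :
    ∀ U₀ ∈ 𝒰.sets, ∃ (U : Subgroup G) (_ : U.Normal) (_ : U ∈ 𝒰.sets) (_ : U ≤ U₀),
      Nonempty (LevelData.{0, 0} (tensorRep (k := k) X) φ 𝒰v
        (fun v => tensorMapRes k (φ v) (π v)) U) := by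
  intro U₀ hU₀
  obtain ⟨U, hN, hU, hle, ⟨D⟩⟩ := hdata U₀ hU₀
  exact ⟨U, hN, hU, hle, ⟨D.tensor M (fun W hW => Levels.IsFin.finiteIndex W hW) hsm
    (fun v W hW => Levels.IsFin.finiteIndex W hW) hsmv⟩⟩

end Tensor

end Fermat.Agent.CFT.D.H4
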