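/-
PROJECT C, slice D1-h4 (helper4), part B2b: THE ARITHMETIC INSTANCE OF `LevelData` FOR ONE PRIME `q`.

`S : Finset Nat.Primes`, `q : Nat.Primes`, `GQ = Gal(ℚ̄/ℚ)` with the levels `levelsS S`.
MODEL-INDEPENDENT: a `QModel S q X` is a `ℤ`-representation `X` of `GQ` with an injective
equivariant map `e : X.V →+ Additive (Loc Qbar q)ˣ` whose image is the `S`-smooth part
`⋃_{F unramified outside S} (F ⊗ ℚ_q)ˣ` of `(ℚ̄ ⊗ ℚ_q)ˣ`.

* `QModel.π : Rep.res (localGaloisToGlobal q) X ⟶ unitsRep ℚ_[q] (PadicAlgCl q)` (evaluation at the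
  place of `ℚ̄` cut out by `padicPlace q`);
* for `L` finite normal unramified outside `S`: `QModel.projFamily L hL` (multiplication by the
  idempotents of the places of `L`) and `QModel.localData L hL` (decomposition group = local Galois
  group of the local level, block = units of the local level);
* `QModel.levelData L hL : LevelData X (fun _ : Unit => loc) (fun _ => levelsLoc q) (fun _ => π)
  L.fixingSubgroup`, and `QModel.hdata` : the hypothesis `hdata` of `h4_one` / `h4_two`.
-/
import Fermat.Agent.CFT.D.H4.QIdeleAlg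
import Fermat.Agent.CFT.D.H4.Main
import Fermat.Agent.CFT.GaloisDict.Basic

set_option autoImplicit false

open scoped TensorProduct
open IntermediateField CategoryTheory
open Fermat.Agent.CFT.Idele Fermat.Agent.CFT.LocalBridge Fermat.Agent.CFT.Bridge
  Fermat.Agent.CFT.C1 Fermat.Agent.CFT.LC Fermat.Agent.CFT.GaloisDict

noncomputable section

namespace Fermat.Agent.CFT.D.H4.QIdele

local instance isAlgebraicQbar_qm : Algebra.IsAlgebraic ℚ (AlgebraicClosure ℚ) :=
  AlgebraicClosure.isAlgebraic ℚ
local instance isAlgClosureQbar_qm : IsAlgClosure ℚ (AlgebraicClosure ℚ) :=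
  ⟨inferInstance, inferInstance⟩
local instance normalQbar_qm : Normal ℚ (AlgebraicClosure ℚ) :=
  IsAlgClosure.normal ℚ (AlgebraicClosure ℚ)

-- for a generic `X : Rep ℤ G` the module structure `X.hV2` must win over `AddCommGroup.toIntModule`
attribute [local instance 1100] Rep.hV2

/-- Transport of an additive endomorphism along an injective additive map with stable range. -/
theorem exists_endo_of_range_stable {A B : Type*} [AddCommGroup A] [AddCommGroup B] (e : A →+ B)
    (he : Function.Injective e) (f : B →+ B) (hf : ∀ a, ∃ a', e a' = f (e a)) :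
    ∃ f' : A →+ A, ∀ a, e (f' a) = f (e a) := by
  choose g hg using hf
  refine ⟨AddMonoidHom.mk' g fun a b => he ?_, hg⟩
  rw [hg, map_add, map_add, map_add, hg, hg]

/-- An additive map between `ℤ`-modules (with arbitrary module instances) is linear. -/
def linOfAddHom {A B : Type*} [AddCommGroup A] [AddCommGroup B] [Module ℤ A] [Module ℤ B]
    (f : A →+ B) : A →ₗ[ℤ] B where
  toFun := f
  map_add' := map_add f
  map_smul' n x := by
    have h := map_intCast_smul f ℤ ℤ n x
    simpa using h

@[simp] lemma linOfAddHom_apply {A B : Type*} [AddCommGroup A] [AddCommGroup B] [Module ℤ A]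
    [Module ℤ B] (f : A →+ B) (x : A) : linOfAddHom f x = f x := rfl

variable (S : Finset Nat.Primes) (q : Nat.Primes)

/-- A model of the `S`-smooth part of `(ℚ̄ ⊗ ℚ_q)ˣ` as a `ℤ`-representation of `Gal(ℚ̄/ℚ)`. -/
structure QModel (X : Rep.{0} ℤ GQ) where
  /-- the embedding into the units of `ℚ̄ ⊗ ℚ_q` -/
  e : X.V →+ Additive (Loc Qbar q)ˣ
  e_injective : Function.Injective e
  e_ρ : ∀ (σ : GQ) (x : X.V), e (X.ρ σ x) = Additive.ofMul (unitAut q σ (e x).toMul)
  mem_range : ∀ F : IntermediateField ℚ Qbar, F.IsUnramifiedOutside S → ∀ v : (Loc F q)ˣ,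
    ∃ x : X.V, e x = Additive.ofMul (unitIncl q F v)
  exists_field : ∀ x : X.V, ∃ F : IntermediateField ℚ Qbar, F.IsUnramifiedOutside S ∧
    ∃ v : (Loc F q)ˣ, e x = Additive.ofMul (unitIncl q F v)

namespace QModel

variable {S q} {X : Rep.{0} ℤ GQ} (M : QModel S q X)

/-- The unit of `ℚ̄ ⊗ ℚ_q` underlying an element of the model. -/
def unit (x : X.V) : (Loc Qbar q)ˣ := (M.e x).toMul

lemma unit_injective : Function.Injective M.unit := fun _ _ h =>
  M.e_injective (congrArg Additive.ofMul h)

@[simp] lemma unit_zero : M.unit 0 = 1 := by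
  change (M.e 0).toMul = 1
  rw [map_zero]
  rfl

lemma unit_add (x y : X.V) : M.unit (x + y) = M.unit x * M.unit y := by
  change (M.e (x + y)).toMul = _
  rw [map_add]
  rfl

lemma unit_ρ (σ : GQ) (x : X.V) : M.unit (X.ρ σ x) = unitAut q σ (M.unit x) := by
  change (M.e (X.ρ σ x)).toMul = _
  rw [M.e_ρ]
  rfl

lemma eq_zero_of_unit_eq_one {x : X.V} (h : M.unit x = 1) : x = 0 :=
  M.unit_injective (h.trans M.unit_zero.symm)

lemma exists_unit_eq (F : IntermediateField ℚ Qbar) (hF : F.IsUnramifiedOutside S)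
    (v : (Loc F q)ˣ) : ∃ x : X.V, M.unit x = unitIncl q F v := by
  obtain ⟨x, hx⟩ := M.mem_range F hF v
  exact ⟨x, congrArg Additive.toMul hx⟩

lemma exists_field_unit (x : X.V) : ∃ F : IntermediateField ℚ Qbar, F.IsUnramifiedOutside S ∧
    ∃ v : (Loc F q)ˣ, M.unit x = unitIncl q F v := by
  obtain ⟨F, hF, v, hv⟩ := M.exists_field x
  exact ⟨F, hF, v, congrArg Additive.toMul hv⟩

/-! ### The evaluation `π` -/

/-- Evaluation at the place of `ℚ̄` cut out by `padicPlace q`, on units. -/
def evUnit : (Loc Qbar q)ˣ →* (PadicAlgCl (q : ℕ))ˣ :=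
  Units.map (evTop q : Loc Qbar q →* PadicAlgCl (q : ℕ))

@[simp] lemma evUnit_coe (u : (Loc Qbar q)ˣ) :
    ((evUnit (q := q) u : (PadicAlgCl (q : ℕ))ˣ) : PadicAlgCl (q : ℕ)) = evTop q u := rfl

lemma evUnit_unitAut (τ : LocGal (q : ℕ)) (u : (Loc Qbar q)ˣ) :
    evUnit (unitAut q (localGaloisToGlobal (q : ℕ) τ) u) =
      Units.map (τ : PadicAlgCl (q : ℕ) →* PadicAlgCl (q : ℕ)) (evUnit u) := by
  apply Units.ext
  exact evTop_aut q τ u

/-- The underlying linear map of `π`. -/
def πLin : X.V →ₗ[ℤ] Additive (PadicAlgCl (q : ℕ))ˣ :=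
  linOfAddHom ((MonoidHom.toAdditive (evUnit (q := q))).comp M.e)

lemma πLin_apply (x : X.V) : M.πLin x = Additive.ofMul (evUnit (M.unit x)) := rfl

/-- **The evaluation morphism** `Res (J_q) ⟶ ℚ̄_qˣ`. -/
def π : Rep.res (localGaloisToGlobal (q : ℕ)) X ⟶ unitsRep ℚ_[(q : ℕ)] (PadicAlgCl (q : ℕ)) :=
  Rep.ofHom ⟨M.πLin, fun τ => by
    apply LinearMap.ext
    intro x
    change M.πLin (X.ρ (localGaloisToGlobal (q : ℕ) τ) x) =
      (unitsRep ℚ_[(q : ℕ)] (PadicAlgCl (q : ℕ))).ρ τ (M.πLin x)
    rw [πLin_apply, πLin_apply, unit_ρ, evUnit_unitAut]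
    rfl⟩

lemma π_hom_apply (x : X.V) : M.π.hom x = Additive.ofMul (evUnit (M.unit x)) := rfl

end QModel

/-! ### The level `L` -/

section Level

variable (q : Nat.Primes) (L : IntermediateField ℚ Qbar) [Normal ℚ L]

lemma restrictNormalHom_eq_one_iff (σ : GQ) :
    AlgEquiv.restrictNormalHom L σ = 1 ↔ σ ∈ L.fixingSubgroup := by
  rw [IntermediateField.mem_fixingSubgroup_iff]
  constructor
  · intro h a ha
    have h1 := congrArg (fun g : L ≃ₐ[ℚ] L => ((g ⟨a, ha⟩ : L) : Qbar)) h
    have h2 : ((AlgEquiv.restrictNormalHom L σ ⟨a, ha⟩ : L) : Qbar) = σ a :=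
      AlgEquiv.restrictNormal_commutes σ L ⟨a, ha⟩
    simp only [AlgEquiv.one_apply] at h1
    rw [← h2]
    exact h1
  · intro h
    ext a
    have h2 : ((AlgEquiv.restrictNormalHom L σ a : L) : Qbar) = σ a :=
      AlgEquiv.restrictNormal_commutes σ L a
    rw [h2, AlgEquiv.one_apply]
    exact h a a.2

lemma ker_restrictNormalHom : (AlgEquiv.restrictNormalHom (F := ℚ) (K₁ := Qbar) L).ker =
    L.fixingSubgroup := by
  ext σ
  rw [MonoidHom.mem_ker]
  exact restrictNormalHom_eq_one_iff L σ

instance normal_fixingSubgroup : L.fixingSubgroup.Normal := by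
  rw [← ker_restrictNormalHom L]
  exact MonoidHom.normal_ker _

/-- `Gal(ℚ̄/ℚ) ⧸ Gal(ℚ̄/L) →* Gal(L/ℚ)`. -/
def resQuot : GQ ⧸ L.fixingSubgroup →* (L ≃ₐ[ℚ] L) :=
  QuotientGroup.lift L.fixingSubgroup (AlgEquiv.restrictNormalHom L) (fun σ hσ =>
    (restrictNormalHom_eq_one_iff L σ).2 hσ)

@[simp] lemma resQuot_mk (σ : GQ) :
    resQuot L (σ : GQ ⧸ L.fixingSubgroup) = AlgEquiv.restrictNormalHom L σ := rfl

lemma resQuot_injective : Function.Injective (resQuot L) := by
  rw [injective_iff_map_eq_one]
  intro c hc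
  induction c using QuotientGroup.induction_on with
  | H σ =>
    rw [resQuot_mk] at hc
    rw [QuotientGroup.eq_one_iff]
    exact (restrictNormalHom_eq_one_iff L σ).1 hc

lemma resQuot_surjective : Function.Surjective (resQuot L) := by
  intro g
  obtain ⟨σ, rfl⟩ := AlgEquiv.restrictNormalHom_surjective (F := ℚ) (K₁ := L) Qbar g
  exact ⟨(σ : GQ ⧸ L.fixingSubgroup), rfl⟩

/-- The action of `Gal(ℚ̄/ℚ) ⧸ Gal(ℚ̄/L)` on the places of `L` above `q`. -/
instance placesAction : MulAction (GQ ⧸ L.fixingSubgroup) (Places q L) :=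
  MulAction.compHom (Places q L) (resQuot L)

lemma placesAction_smul (c : GQ ⧸ L.fixingSubgroup) (x : Places q L) :
    c • x = resQuot L c • x := rfl

variable [FiniteDimensional ℚ L]

/-- Multiplication by the idempotent of a place, on units. -/
def projUnit (x : Places q L) : (Loc Qbar q)ˣ →* (Loc Qbar q)ˣ :=
  unitProj (topIdem q L x) ((topIdem_coi q L).idem x)

@[simp] lemma projUnit_coe (x : Places q L) (u : (Loc Qbar q)ˣ) :
    ((projUnit q L x u : (Loc Qbar q)ˣ) : Loc Qbar q) = u * topIdem q L x + (1 - topIdem q L x) :=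
  rfl

lemma unitAut_projUnit (σ : GQ) (x : Places q L) (u : (Loc Qbar q)ˣ) :
    unitAut q σ (projUnit q L x u) =
      projUnit q L ((σ : GQ ⧸ L.fixingSubgroup) • x) (unitAut q σ u) := by
  apply Units.ext
  rw [unitAut_coe, projUnit_coe, projUnit_coe, map_add, map_mul, map_sub, map_one, aut_topIdem,
    unitAut_coe]
  rfl

lemma projUnit_projUnit_same (x : Places q L) (u : (Loc Qbar q)ˣ) :
    projUnit q L x (projUnit q L x u) = projUnit q L x u :=
  unitProj_unitProj_same _ _ u

lemma projUnit_projUnit_of_ne {x y : Places q L} (hxy : x ≠ y) (u : (Loc Qbar q)ˣ) :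
    projUnit q L x (projUnit q L y u) = 1 :=
  unitProj_unitProj_ortho _ _ _ _ ((topIdem_coi q L).ortho hxy) u

lemma prod_projUnit (u : (Loc Qbar q)ˣ) : ∏ x, projUnit q L x u = u :=
  prod_unitProj (topIdem q L) (topIdem_coi q L) u

/-- The projectors preserve the units defined over a field containing `L`. -/
lemma exists_unitIncl_eq_projUnit {F : IntermediateField ℚ Qbar} (hLF : L ≤ F) (x : Places q L)
    (v : (Loc F q)ˣ) : ∃ v' : (Loc F q)ˣ, unitIncl q F v' = projUnit q L x (unitIncl q F v) := by
  set e' : Loc F q := Loc.map q (IntermediateField.inclusion hLF) (placeIdemAt q L x) with he'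
  have hmap : Loc.map q F.val e' = topIdem q L x := by
    have e : F.val.comp (IntermediateField.inclusion hLF) = L.val := by
      ext a
      rfl
    rw [he', ← Loc.map_comp_apply, e]
    rfl
  have hid : IsIdempotentElem e' := by
    change e' * e' = e'
    rw [he', ← map_mul, placeIdemAt_mul_self]
  refine ⟨unitProj e' hid v, ?_⟩
  apply Units.ext
  rw [unitIncl_coe, unitProj_coe, projUnit_coe, map_add, map_mul, map_sub, map_one, hmap,
    unitIncl_coe]

end Level

namespace QModel

variable {S : Finset Nat.Primes} {q : Nat.Primes} {X : Rep.{0} ℤ GQ} (M : QModel S q X)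
  (L : IntermediateField ℚ Qbar) [FiniteDimensional ℚ L] [Normal ℚ L]
  (hL : L.IsUnramifiedOutside S)

include hL in
lemma exists_e_eq_projUnit (x : Places q L) (a : X.V) :
    ∃ a' : X.V, M.e a' = (MonoidHom.toAdditive (projUnit q L x)) (M.e a) := by
  obtain ⟨F, hF, v, hv⟩ := M.exists_field_unit a
  obtain ⟨v₁, hv₁⟩ := unitIncl_mono q (le_sup_left : F ≤ F ⊔ L) v
  obtain ⟨v₂, hv₂⟩ := exists_unitIncl_eq_projUnit q L (le_sup_right : L ≤ F ⊔ L) x v₁
  obtain ⟨a', ha'⟩ := M.exists_unit_eq (F ⊔ L) (hF.sup hL) v₂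
  refine ⟨a', ?_⟩
  apply congrArg Additive.ofMul (a₁ := M.unit a')
  rw [ha', hv₂, hv₁, ← hv]
  rfl

/-- The projector of the place `x` on the model. -/
def projAdd (x : Places q L) : X.V →+ X.V :=
  Classical.choose (exists_endo_of_range_stable M.e M.e_injective
    (MonoidHom.toAdditive (projUnit q L x)) (M.exists_e_eq_projUnit L hL x))

lemma unit_projAdd (x : Places q L) (a : X.V) :
    M.unit (M.projAdd L hL x a) = projUnit q L x (M.unit a) :=
  congrArg Additive.toMul (Classical.choose_spec (exists_endo_of_range_stable M.e M.e_injective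
    (MonoidHom.toAdditive (projUnit q L x)) (M.exists_e_eq_projUnit L hL x)) a)

lemma unit_sum {ι : Type*} (s : Finset ι) (f : ι → X.V) :
    M.unit (∑ i ∈ s, f i) = ∏ i ∈ s, M.unit (f i) := by
  classical
  induction s using Finset.induction_on with
  | empty => simp
  | insert i s hi ih => rw [Finset.sum_insert hi, Finset.prod_insert hi, unit_add, ih]

/-- **The projector family of the level `L`** on the model. -/
def projFamily : ProjFamily X L.fixingSubgroup (Places q L) where
  p x := linOfAddHom (M.projAdd L hL x)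
  idem x a := M.unit_injective (by
    simp only [linOfAddHom_apply, unit_projAdd, projUnit_projUnit_same])
  ortho x y hxy a := M.unit_injective (by
    simp only [linOfAddHom_apply, unit_projAdd, projUnit_projUnit_of_ne q L hxy, unit_zero])
  complete a := M.unit_injective (by
    simp only [linOfAddHom_apply, unit_sum, unit_projAdd, prod_projUnit])
  equivariant σ x a := M.unit_injective (by
    simp only [linOfAddHom_apply, unit_projAdd, unit_ρ, unitAut_projUnit])

@[simp] lemma unit_projFamily_p (x : Places q L) (a : X.V) :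
    M.unit ((M.projFamily L hL).p x a) = projUnit q L x (M.unit a) :=
  M.unit_projAdd L hL x a

/-! ### The local data at the base place -/

/-- The local level: `Gal(ℚ̄_q / L_q)`. -/
abbrev locV (q : Nat.Primes) (L : IntermediateField ℚ Qbar) : Subgroup (LocGal (q : ℕ)) :=
  (localLevel (q : ℕ) L).fixingSubgroup

omit [FiniteDimensional ℚ L] [Normal ℚ L] in
lemma locV_le : locV q L ≤ L.fixingSubgroup.comap (localGaloisToGlobal (q : ℕ)) :=
  (comap_fixingSubgroup (q : ℕ) L).ge

lemma locV_mem : locV q L ∈ (levelsLoc (q : ℕ)).sets :=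
  ⟨localLevel (q : ℕ) L, inferInstance, inferInstance, rfl⟩

instance normal_locV : (locV q L).Normal := (levelsLoc (q : ℕ)).normal _ (locV_mem L)

omit [FiniteDimensional ℚ L] [Normal ℚ L] in
lemma unit_eq_unitIncl_of_invariant (a : X.V) (haU : ∀ u ∈ L.fixingSubgroup, X.ρ u a = a) :
    ∃ v : (Loc L q)ˣ, unitIncl q L v = M.unit a := by
  apply exists_unitIncl_eq_of_fixed
  intro σ hσ
  rw [← M.unit_ρ, haU σ hσ]

omit [FiniteDimensional ℚ L] [Normal ℚ L] in
lemma ρ_eq_of_unit_eq_unitIncl {a : X.V} {v : (Loc L q)ˣ} (hv : M.unit a = unitIncl q L v)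
    (u : GQ) (hu : u ∈ L.fixingSubgroup) : X.ρ u a = a := by
  apply M.unit_injective
  rw [M.unit_ρ, hv, unitAut_unitIncl_of_mem q L v hu]

lemma projUnit_basePlace_unitIncl (v : (Loc L q)ˣ) :
    ((projUnit q L (basePlace q L) (unitIncl q L v) : (Loc Qbar q)ˣ) : Loc Qbar q) =
      Loc.map q L.val ((v : Loc L q) * placeIdem q L + (1 - placeIdem q L)) := by
  rw [projUnit_coe, topIdem_basePlace, unitIncl_coe, map_add, map_mul, map_sub, map_one]

/-- **The local data of the level `L` at the base place.** -/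
theorem localData :
    LocalData (M.projFamily L hL) (basePlace q L) (localGaloisToGlobal (q : ℕ)) (locV q L)
      (locV_le L) M.π where
  quot_injective := by
    rw [injective_iff_map_eq_one]
    intro c hc
    induction c using QuotientGroup.induction_on with
    | H τ =>
      rw [quotHom_mk, QuotientGroup.eq_one_iff] at hc
      rw [QuotientGroup.eq_one_iff]
      exact (comap_fixingSubgroup (q : ℕ) L).le hc
  range_quot := by
    ext c
    induction c using QuotientGroup.induction_on with
    | H σ =>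
      have hstab : ((σ : GQ ⧸ L.fixingSubgroup) ∈
          MulAction.stabilizer (GQ ⧸ L.fixingSubgroup) (basePlace q L)) ↔
          AlgEquiv.restrictNormalHom L σ ∈ decGroup q L := by
        rw [MulAction.mem_stabilizer_iff, placesAction_smul, resQuot_mk,
          ← MulAction.mem_stabilizer_iff, MulAction.stabilizer_quotient]
      rw [hstab, MonoidHom.mem_range]
      constructor
      · rintro ⟨d, hd⟩
        induction d using QuotientGroup.induction_on with
        | H τ =>
          refine ⟨τ, ?_⟩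
          have h1 := congrArg (resQuot L) hd
          rw [quotHom_mk, resQuot_mk, resQuot_mk] at h1
          exact h1
      · rintro ⟨τ, hτ⟩
        refine ⟨(τ : LocGal (q : ℕ) ⧸ locV q L), ?_⟩
        apply resQuot_injective L
        rw [quotHom_mk, resQuot_mk, resQuot_mk]
        exact hτ
  π_p a := by
    rw [π_hom_apply, π_hom_apply, unit_projFamily_p]
    congr 1
    apply Units.ext
    rw [evUnit_coe, evUnit_coe, projUnit_coe, map_add, map_mul, map_sub, map_one,
      evTop_topIdem_basePlace, mul_one, sub_self, add_zero]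
  injOn a haU hap hπ := by
    obtain ⟨v, hv⟩ := M.unit_eq_unitIncl_of_invariant L a haU
    have hblock : (v : Loc L q) * placeIdem q L + (1 - placeIdem q L) = v := by
      apply Loc.map_injective q L.val
      rw [← projUnit_basePlace_unitIncl, hv, ← unit_projFamily_p M L hL, hap, ← hv, unitIncl_coe]
    have hev : locEval q L v = 1 := by
      have h1 : evUnit (M.unit a) = 1 := by
        have h2 : Additive.ofMul (evUnit (M.unit a)) = 0 := hπ
        exact h2
      have h3 := congrArg Units.val h1
      rw [evUnit_coe, ← hv, unitIncl_coe, evTop_map, Units.val_one] at h3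
      exact h3
    have hv1 := eq_one_of_locEval_eq_one q L v hblock hev
    apply M.eq_zero_of_unit_eq_one
    rw [← hv, hv1, map_one]
  surjOn y hy := by
    have hyV : ((Additive.toMul y : (PadicAlgCl (q : ℕ))ˣ) : PadicAlgCl (q : ℕ)) ∈
        localLevel (q : ℕ) L := by
      have h1 : ((Additive.toMul y : (PadicAlgCl (q : ℕ))ˣ) : PadicAlgCl (q : ℕ)) ∈
          IntermediateField.fixedField (locV q L) := by
        rw [IntermediateField.mem_fixedField_iff]
        intro τ hτ
        have h2 := hy τ hτ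
        exact congrArg (fun z : Additive (PadicAlgCl (q : ℕ))ˣ =>
          ((Additive.toMul z : (PadicAlgCl (q : ℕ))ˣ) : PadicAlgCl (q : ℕ))) h2
      rw [InfiniteGalois.fixedField_fixingSubgroup] at h1
      exact h1
    obtain ⟨v, hblock, hev⟩ := exists_block_unit q L hyV
    obtain ⟨a, ha⟩ := M.exists_unit_eq L hL v
    refine ⟨a, M.ρ_eq_of_unit_eq_unitIncl L ha, ?_, ?_⟩
    · apply M.unit_injective
      rw [unit_projFamily_p, ha]
      apply Units.ext
      rw [projUnit_basePlace_unitIncl, hblock, unitIncl_coe]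
    · rw [π_hom_apply, ha]
      apply congrArg Additive.ofMul (a₂ := Additive.toMul y)
      apply Units.ext
      rw [evUnit_coe, unitIncl_coe, evTop_map, hev]
      rfl

/-! ### The level data -/

omit [FiniteDimensional ℚ L] in
lemma mem_orbit_basePlace (x : Places q L) :
    x ∈ MulAction.orbit (GQ ⧸ L.fixingSubgroup) (basePlace q L) := by
  induction x using QuotientGroup.induction_on with
  | H g =>
    obtain ⟨c, rfl⟩ := resQuot_surjective L g
    rw [MulAction.mem_orbit_iff]
    refine ⟨c, ?_⟩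
    rw [placesAction_smul]
    change ((resQuot L c * 1 : L ≃ₐ[ℚ] L) : Places q L) = _
    rw [mul_one]

/-- **The level data of the level `L`** (one rational prime `q`, index type `Unit`). -/
def levelData :
    LevelData.{0, 0} X (fun _ : Unit => localGaloisToGlobal (q : ℕ))
      (fun _ : Unit => levelsLoc (q : ℕ)) (fun _ : Unit => M.π) L.fixingSubgroup where
  P := Places q L
  F := M.projFamily L hL
  r := fun _ => basePlace q L
  r_surj x := ⟨(), mem_orbit_basePlace L x⟩
  r_inj _ _ _ := rfl
  V := fun _ => locV q L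
  normal := fun _ => normal_locV L
  mem := fun _ => locV_mem L
  le := fun _ => locV_le L
  loc := fun _ => M.localData L hL

end QModel

/-- **The hypothesis `hdata` of `h4_one` / `h4_two`** for any model of the `S`-smooth part of
`(ℚ̄ ⊗ ℚ_q)ˣ`: every level of `levelsS S` carries level data. -/
theorem QModel.hdata {S : Finset Nat.Primes} {q : Nat.Primes} {X : Rep.{0} ℤ GQ} (M : QModel S q X) :
    ∀ U₀ ∈ (levelsS S).sets, ∃ (U : Subgroup GQ) (_ : U.Normal) (_ : U ∈ (levelsS S).sets)
      (_ : U ≤ U₀), Nonempty (LevelData.{0, 0} X (fun _ : Unit => localGaloisToGlobal (q : ℕ))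
        (fun _ : Unit => levelsLoc (q : ℕ)) (fun _ : Unit => M.π) U) := by
  rintro U₀ ⟨hN, F, hF, rfl⟩
  have := hF.1
  have : Normal ℚ F := normal_of_normal_fixingSubgroup F hN
  exact ⟨F.fixingSubgroup, hN, ⟨hN, F, hF, rfl⟩, le_rfl, ⟨M.levelData F hF⟩⟩

/-- The places of `L` above `q` form one orbit (hypothesis `htrans` of `C7/JFrobenius`). -/
theorem exists_smul_eq_basePlace (q : Nat.Primes) (L : IntermediateField ℚ Qbar) [Normal ℚ L]
    (x : Places q L) : ∃ g : GQ, (g : GQ ⧸ L.fixingSubgroup) • x = basePlace q L := by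
  obtain ⟨c, hc⟩ := MulAction.mem_orbit_iff.1 (QModel.mem_orbit_basePlace (q := q) L x)
  induction c using QuotientGroup.induction_on with
  | H g =>
    refine ⟨g⁻¹, ?_⟩
    rw [← hc, QuotientGroup.mk_inv, inv_smul_smul]

end Fermat.Agent.CFT.D.H4.QIdele
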