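/-
PROJECT C, slice D1-h4 (helper4), part B2c: helper11's `QS.Jq S q` IS A `QModel`.

* `qModel S q : QModel S q (QS.Jq S q)` with `e` the inclusion of `LocP` into `(Loc Qbar q)ˣ`;
* `qModel_π : (qModel S q).π = QS.pi q S`;
* `hdata_Jq S q` : the hypothesis `hdata` of `h4_one` / `h4_two` (and of helper16's `C7/JInj`,
  `C7/JInduced`) for `J := QS.Jq S q`, `π := QS.pi q S`, index type `Unit`.
-/
import Fermat.Agent.CFT.D.H4.QIdele
import Fermat.Agent.CFT.Idele.LocalEval

set_option autoImplicit false

open scoped TensorProduct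
open IntermediateField CategoryTheory
open Fermat.Agent.CFT.Idele Fermat.Agent.CFT.LocalBridge Fermat.Agent.CFT.Bridge
  Fermat.Agent.CFT.LC Fermat.Agent.CFT.GaloisDict

noncomputable section

namespace Fermat.Agent.CFT.D.H4.QIdele

variable (S : Finset Nat.Primes) (q : Nat.Primes)

/-- helper11's `J_q` is a model of the `S`-smooth part of `(ℚ̄ ⊗ ℚ_q)ˣ`. -/
def qModel : QModel S q (QS.Jq S q) where
  e := (MonoidHom.toAdditive (LocP (isFieldFilter_unram S) q).subtype :
    Additive (LocP (isFieldFilter_unram S) q) →+ Additive (Loc Qbar q)ˣ)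
  e_injective := fun a b h => by
    have h1 : ((Additive.toMul a : LocP (isFieldFilter_unram S) q) : (Loc Qbar q)ˣ) =
        (Additive.toMul b : LocP (isFieldFilter_unram S) q) := congrArg Additive.toMul h
    exact congrArg Additive.ofMul (Subtype.ext h1)
  e_ρ := fun σ x => rfl
  mem_range := fun F hF v =>
    ⟨Additive.ofMul ⟨unitIncl q F v, F, hF, v, rfl⟩, rfl⟩
  exists_field := fun x => by
    obtain ⟨F, hF, v, hv⟩ := (Additive.toMul x : LocP (isFieldFilter_unram S) q).2
    exact ⟨F, hF, v, congrArg Additive.ofMul hv.symm⟩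

theorem qModel_unit (x : (QS.Jq S q).V) :
    (qModel S q).unit x = ((Additive.toMul x : LocP (isFieldFilter_unram S) q) : (Loc Qbar q)ˣ) :=
  rfl

/-- The evaluation of the model is helper11's `π_q`. -/
theorem qModel_π : (qModel S q).π = QS.pi q S := by
  apply Rep.hom_ext
  apply Representation.IntertwiningMap.ext
  apply LinearMap.ext
  intro x
  rfl

/-- **`hdata` for helper11's `J_q`**: every level of `levelsS S` carries level data for
`(QS.Jq S q, QS.pi q S)`. -/
theorem hdata_Jq : ∀ U₀ ∈ (levelsS S).sets, ∃ (U : Subgroup GQ) (_ : U.Normal)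
    (_ : U ∈ (levelsS S).sets) (_ : U ≤ U₀),
    Nonempty (LevelData.{0, 0} (QS.Jq S q) (fun _ : Unit => localGaloisToGlobal (q : ℕ))
      (fun _ : Unit => levelsLoc (q : ℕ)) (fun _ : Unit => QS.pi q S) U) := by
  have h := (qModel S q).hdata
  rw [qModel_π] at h
  exact h

end Fermat.Agent.CFT.D.H4.QIdele
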