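/-
PROJECT C, slice D1-h4 (helper4), part B4: (h4) FOR `J_q ⊗ k`, END TO END.

`S : Finset Nat.Primes`, `q : Nat.Primes`, `k` a localisation of `ℤ` (e.g. `ℤ_(p)`), helper11's
`QS.Jq S q`, `QS.pi q S`, helper9's tensor model.

* `continuous_loc S q` : `localGaloisToGlobal q` is continuous for `levelsLoc q` and `levelsS S`;
* `h90_of_classFormation` : the Hilbert-90-on-layers hypothesis of `h4_two` from any
  `A7.ClassFormation`;
* `JqK`, `DqK`, `piK` : `J_q ⊗ k`, `ℚ̄_qˣ ⊗ k`, `π_q ⊗ k`;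
* `hdata_JqK` : level data at every level of `levelsS S`;
* `h4_one_JqK`, `h4_two_JqK` : injectivity of
  `Hⁿ_LC(G_ℚ, Hom(B, J_q ⊗ k)) → Hⁿ_LC(G_q, Hom(Res B, ℚ̄_qˣ ⊗ k))`, `n = 1, 2`.
-/
import Fermat.Agent.CFT.D.H4.QSInstance
import Fermat.Agent.CFT.D.H4.LocK
import Fermat.Agent.CFT.Local.ClassFormationLocK

set_option autoImplicit false

open CategoryTheory
open Fermat.Agent.CFT.Idele Fermat.Agent.CFT.LocalBridge Fermat.Agent.CFT.Bridge
  Fermat.Agent.CFT.LC Fermat.Agent.CFT.GaloisDict Fermat.Agent.CFT.A7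
  Fermat.Agent.CFT.A7.BaseChange Fermat.Agent.CFT.A7.HomRep Fermat.Agent.CFT.InfRes2
  Fermat.Agent.CFT.Local.ClassFormationLC

noncomputable section

namespace Fermat.Agent.CFT.D.H4

/-- The Hilbert-90-on-layers hypothesis of `h4_two` holds for every class formation. -/
theorem h90_of_classFormation {k G : Type} [CommRing k] [Group G] {𝒰 : Levels G}
    {C : Rep.{0} k G} (cf : ClassFormation 𝒰 C) (V W : Subgroup G) (_ : V.Normal)
    (hN : W.Normal) (_ : V ∈ 𝒰.sets) (hW : W ∈ 𝒰.sets) (_ : W ≤ V) :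
    H1Vanishes (C.quotientToInvariants W) (layer V W) :=
  h1Vanishes_of_isZero ((cf.isClassModule W hW).h1 (layer V W))

namespace QIdele

variable (S : Finset Nat.Primes) (q : Nat.Primes)

/-- `Gal(ℚ̄_q/ℚ_q) → Gal(ℚ̄/ℚ)` is continuous for the local levels and the levels of `G_S`. -/
theorem continuous_loc :
    Levels.Continuous (localGaloisToGlobal (q : ℕ)) (levelsLoc (q : ℕ)) (levelsS S) := by
  rintro U ⟨hN, F, hF, rfl⟩
  have := hF.1
  have : Normal ℚ F := normal_of_normal_fixingSubgroup F hN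
  exact ⟨QModel.locV q F, QModel.locV_mem F, QModel.locV_le F⟩

variable (k : Type) [CommRing k] [Algebra ℤ k]

/-- `J_q ⊗ k`. -/
abbrev JqK : Rep.{0} k GQ := tensorRep (k := k) (QS.Jq S q)

/-- `ℚ̄_qˣ ⊗ k`. -/
abbrev DqK : Rep.{0} k (LocGal (q : ℕ)) :=
  tensorRep (k := k) (unitsRep ℚ_[(q : ℕ)] (PadicAlgCl (q : ℕ)))

/-- `π_q ⊗ k`. -/
abbrev piK : Rep.res (localGaloisToGlobal (q : ℕ)) (JqK S q k) ⟶ DqK q k :=
  tensorMapRes k (localGaloisToGlobal (q : ℕ)) (QS.pi q S)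

variable (M : Submonoid ℤ) [IsLocalization M k]

include M in
/-- **`hdata` for `J_q ⊗ k`.** -/
theorem hdata_JqK : ∀ U₀ ∈ (levelsS S).sets, ∃ (U : Subgroup GQ) (_ : U.Normal)
    (_ : U ∈ (levelsS S).sets) (_ : U ≤ U₀),
    Nonempty (LevelData.{0, 0} (JqK S q k) (fun _ : Unit => localGaloisToGlobal (q : ℕ))
      (fun _ : Unit => levelsLoc (q : ℕ)) (fun _ : Unit => piK S q k) U) :=
  hdata_tensor M (QS.isSmooth_Jq S q) (fun _ => isSmooth_unitsRep_levelsLoc (q : ℕ))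
    (hdata_Jq S q)

/-- The local class formation on `ℚ̄_qˣ ⊗ k`. -/
def cfDqK : ClassFormation (levelsLoc (q : ℕ)) (DqK q k) :=
  classFormationLocK (q : ℕ) M
    (isLocRep_tensorRep M (unitsRep ℚ_[(q : ℕ)] (PadicAlgCl (q : ℕ))))

variable {k}

include M in
/-- **(h4b) for `J_q ⊗ k`**: `H¹_LC(G_ℚ, Hom(B, J_q ⊗ k)) → H¹_LC(G_q, Hom(Res B, ℚ̄_qˣ ⊗ k))` is
injective, for every `B` on which a level acts trivially. -/
theorem h4_one_JqK (B : Rep.{0} k GQ) (U₁ : Subgroup GQ) (hU₁ : U₁ ∈ (levelsS S).sets)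
    (hB : ∀ u ∈ U₁, ∀ b : B.V, B.ρ u b = b) (x : H (levelsS S) (homRep B (JqK S q k)) 1)
    (hx : LC.map (continuous_loc S q) (homPush (localGaloisToGlobal (q : ℕ)) B (piK S q k)) 1 x
      = 0) : x = 0 :=
  h4_one (fun _ : Unit => continuous_loc S q) B U₁ hU₁ hB (hdata_JqK S q k M) x (fun _ => hx)

include M in
/-- **(h4a) for `J_q ⊗ k`**: `H²_LC(G_ℚ, Hom(B, J_q ⊗ k)) → H²_LC(G_q, Hom(Res B, ℚ̄_qˣ ⊗ k))` is
injective, for every `k`-free `B` on which a level acts trivially. -/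
theorem h4_two_JqK (B : Rep.{0} k GQ) [Module.Free k B.V] (U₁ : Subgroup GQ)
    (hU₁ : U₁ ∈ (levelsS S).sets) (hB : ∀ u ∈ U₁, ∀ b : B.V, B.ρ u b = b)
    (x : H (levelsS S) (homRep B (JqK S q k)) 2)
    (hx : LC.map (continuous_loc S q) (homPush (localGaloisToGlobal (q : ℕ)) B (piK S q k)) 2 x
      = 0) : x = 0 :=
  h4_two (fun _ : Unit => continuous_loc S q) B U₁ hU₁ hB (hdata_JqK S q k M)
    (fun _ V W hV hW hVm hWm hle => h90_of_classFormation (cfDqK q k M) V W hV hW hVm hWm hle)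
    x (fun _ => hx)

end QIdele

end Fermat.Agent.CFT.D.H4
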