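/-
PROJECT C, slice D1-h4 (helper4), part B2a: THE SEMILOCAL ALGEBRA `ℚ̄ ⊗ ℚ_q` AT THE TOP LEVEL.

`q : Nat.Primes`, `Qbar = AlgebraicClosure ℚ`, `Loc Qbar q = Qbar ⊗[ℚ] ℚ_[q]` (helper11's
conventions), `GQ = Gal(Qbar/ℚ)` acting through `Loc.aut`.

* `evTop q : Loc Qbar q →ₐ[ℚ] PadicAlgCl q`, `a ⊗ c ↦ padicEmbedding a * c`, with
  `evTop_map` (restriction to `L ⊗ ℚ_q` is `locEval q L`) and `evTop_aut` (equivariance along
  `localGaloisToGlobal q`);
* `aut_map_restrict` : restriction to a normal subfield intertwines the Galois actions;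
* `unitAut`, `unitIncl`, Galois descent for units (`exists_unitIncl_eq_of_fixed`);
* for `L` finite normal: `Places q L = Gal(L/ℚ) ⧸ decGroup q L`, the complete family of orthogonal
  idempotents `topIdem q L x` of `Loc Qbar q` (`topIdem_coi`, `aut_topIdem`, `evTop_topIdem_one`),
  the block/evaluation lemmas `eq_one_of_evTop_eq_one`, `exists_block_unit`.
-/
import Fermat.Agent.CFT.LocalBridge.PlaceIdem
import Fermat.Agent.CFT.C1.Units

set_option autoImplicit false

open scoped TensorProduct
open IntermediateField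
open Fermat.Agent.CFT.Idele Fermat.Agent.CFT.LocalBridge Fermat.Agent.CFT.Bridge
  Fermat.Agent.CFT.C1

namespace Fermat.Agent.CFT.D.H4.QIdele

local instance isAlgebraicQbar_qi : Algebra.IsAlgebraic ℚ (AlgebraicClosure ℚ) :=
  AlgebraicClosure.isAlgebraic ℚ
local instance isAlgClosureQbar_qi : IsAlgClosure ℚ (AlgebraicClosure ℚ) :=
  ⟨inferInstance, inferInstance⟩
local instance normalQbar_qi : Normal ℚ (AlgebraicClosure ℚ) :=
  IsAlgClosure.normal ℚ (AlgebraicClosure ℚ)

variable (q : Nat.Primes)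

/-- Evaluation of `ℚ̄ ⊗ ℚ_q` at the place cut out by `padicPlace q`. -/
noncomputable def evTop : Loc Qbar q →ₐ[ℚ] PadicAlgCl (q : ℕ) :=
  Algebra.TensorProduct.productMap (padicEmbedding (q : ℕ))
    (IsScalarTower.toAlgHom ℚ ℚ_[(q : ℕ)] (PadicAlgCl (q : ℕ)))

@[simp] theorem evTop_tmul (a : Qbar) (c : ℚ_[(q : ℕ)]) :
    evTop q (a ⊗ₜ[ℚ] c) =
      padicEmbedding (q : ℕ) a * algebraMap ℚ_[(q : ℕ)] (PadicAlgCl (q : ℕ)) c := by
  rw [evTop, Algebra.TensorProduct.productMap_apply_tmul]
  rfl

theorem evTop_map (L : IntermediateField ℚ Qbar) (y : Loc L q) :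
    evTop q (Loc.map q L.val y) = locEval q L y := by
  induction y using TensorProduct.induction_on with
  | zero => simp
  | tmul a c => rw [Loc.map_tmul, evTop_tmul, locEval_tmul]; rfl
  | add z w hz hw => rw [map_add, map_add, map_add, hz, hw]

theorem evTop_aut (τ : LocGal (q : ℕ)) (y : Loc Qbar q) :
    evTop q (Loc.aut Qbar q (localGaloisToGlobal (q : ℕ) τ) y) = τ (evTop q y) := by
  induction y using TensorProduct.induction_on with
  | zero => simp
  | tmul a c =>
    rw [Loc.aut_tmul, evTop_tmul, evTop_tmul, map_mul, padicEmbedding_localGaloisToGlobal,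
      AlgEquiv.commutes]
  | add z w hz hw => rw [map_add, map_add, map_add, map_add, hz, hw]

/-- Restriction to a normal subfield is compatible with the actions on the semilocal algebras. -/
theorem aut_map_restrict (L : IntermediateField ℚ Qbar) [Normal ℚ L] (σ : GQ) (y : Loc L q) :
    Loc.aut Qbar q σ (Loc.map q L.val y) =
      Loc.map q L.val (Loc.aut L q (AlgEquiv.restrictNormalHom L σ) y) := by
  induction y using TensorProduct.induction_on with
  | zero => simp
  | tmul a c =>
    rw [Loc.map_tmul, Loc.aut_tmul, Loc.aut_tmul, Loc.map_tmul]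
    congr 1
    exact (AlgEquiv.restrictNormal_commutes σ L a).symm
  | add z w hz hw => rw [map_add, map_add, map_add, map_add, hz, hw]

/-- The action of `Gal(ℚ̄/ℚ)` on the units of `ℚ̄ ⊗ ℚ_q`. -/
noncomputable def unitAut (σ : GQ) : (Loc Qbar q)ˣ →* (Loc Qbar q)ˣ :=
  Units.map (Loc.aut Qbar q σ : Loc Qbar q →* Loc Qbar q)

@[simp] theorem unitAut_coe (σ : GQ) (u : (Loc Qbar q)ˣ) :
    ((unitAut q σ u : (Loc Qbar q)ˣ) : Loc Qbar q) = Loc.aut Qbar q σ u := rfl

/-- The units of `F ⊗ ℚ_q` inside the units of `ℚ̄ ⊗ ℚ_q`. -/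
noncomputable def unitIncl (F : IntermediateField ℚ Qbar) : (Loc F q)ˣ →* (Loc Qbar q)ˣ :=
  Units.map (Loc.map q F.val : Loc F q →* Loc Qbar q)

@[simp] theorem unitIncl_coe (F : IntermediateField ℚ Qbar) (v : (Loc F q)ˣ) :
    ((unitIncl q F v : (Loc Qbar q)ˣ) : Loc Qbar q) = Loc.map q F.val v := rfl

theorem unitIncl_injective (F : IntermediateField ℚ Qbar) : Function.Injective (unitIncl q F) := by
  intro v w h
  apply Units.ext
  apply Loc.map_injective q F.val
  exact congrArg Units.val h

/-- Galois descent for the units of `ℚ̄ ⊗ ℚ_q`. -/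
theorem exists_unitIncl_eq_of_fixed (F : IntermediateField ℚ Qbar) (u : (Loc Qbar q)ˣ)
    (hu : ∀ σ ∈ F.fixingSubgroup, unitAut q σ u = u) : ∃ v : (Loc F q)ˣ, unitIncl q F v = u := by
  have hfix : ∀ a : Qbar, (∀ σ ∈ (F.fixingSubgroup : Set GQ), σ a = a) → a ∈ F.val.range := by
    intro a ha
    have h1 : a ∈ IntermediateField.fixedField F.fixingSubgroup := by
      rw [IntermediateField.mem_fixedField_iff]
      exact ha
    rw [InfiniteGalois.fixedField_fixingSubgroup] at h1
    exact ⟨⟨a, h1⟩, rfl⟩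
  have hu1 : ∀ σ ∈ (F.fixingSubgroup : Set GQ), Loc.aut Qbar q σ (u : Loc Qbar q) = u :=
    fun σ hσ => congrArg Units.val (hu σ hσ)
  have hu2 : ∀ σ ∈ (F.fixingSubgroup : Set GQ),
      Loc.aut Qbar q σ ((u⁻¹ : (Loc Qbar q)ˣ) : Loc Qbar q) = (u⁻¹ : (Loc Qbar q)ˣ) := by
    intro σ hσ
    have h := hu σ hσ
    have h2 : unitAut q σ u⁻¹ = u⁻¹ := by rw [map_inv, h]
    exact congrArg Units.val h2
  obtain ⟨y, hy⟩ := (AlgHom.mem_range (Loc.map q F.val)).mp
    (Loc.mem_range_map_of_fixed q F.val _ hfix (u : Loc Qbar q) hu1)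
  obtain ⟨y', hy'⟩ := (AlgHom.mem_range (Loc.map q F.val)).mp
    (Loc.mem_range_map_of_fixed q F.val _ hfix ((u⁻¹ : (Loc Qbar q)ˣ) : Loc Qbar q) hu2)
  have h1 : y * y' = 1 := by
    apply Loc.map_injective q F.val
    rw [map_mul, hy, hy', Units.mul_inv, map_one]
  have h2 : y' * y = 1 := by rw [mul_comm]; exact h1
  exact ⟨⟨y, y', h1, h2⟩, Units.ext hy⟩

theorem unitAut_unitIncl_of_mem (F : IntermediateField ℚ Qbar) (v : (Loc F q)ˣ) {σ : GQ}
    (hσ : σ ∈ F.fixingSubgroup) : unitAut q σ (unitIncl q F v) = unitIncl q F v := by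
  apply Units.ext
  exact Loc.aut_map_of_fixes q F.val σ
    (fun a => (IntermediateField.mem_fixingSubgroup_iff F σ).mp hσ a a.2) _

theorem unitIncl_mono {F F' : IntermediateField ℚ Qbar} (h : F ≤ F') (v : (Loc F q)ˣ) :
    ∃ v' : (Loc F' q)ˣ, unitIncl q F' v' = unitIncl q F v := by
  refine ⟨Units.map (Loc.map q (IntermediateField.inclusion h) : Loc F q →* Loc F' q) v, ?_⟩
  apply Units.ext
  have e : F'.val.comp (IntermediateField.inclusion h) = F.val := by
    ext a
    rfl
  change Loc.map q F'.val (Loc.map q (IntermediateField.inclusion h) (v : Loc F q)) =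
    Loc.map q F.val v
  rw [← Loc.map_comp_apply, e]


/-! ### The places of a finite normal level and their idempotents -/

section Level

variable (L : IntermediateField ℚ Qbar) [FiniteDimensional ℚ L] [Normal ℚ L]

/-- The places of `L` above `q`: cosets of the decomposition group. -/
abbrev Places : Type := (L ≃ₐ[ℚ] L) ⧸ decGroup q L

noncomputable instance fintypePlaces : Fintype (Places q L) := Fintype.ofFinite _

/-- The idempotent of `ℚ̄ ⊗ ℚ_q` cut out by a place of `L`. -/
noncomputable def topIdem (x : Places q L) : Loc Qbar q := Loc.map q L.val (placeIdemAt q L x)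

theorem topIdem_coi : CompleteOrthogonalIdempotents (topIdem q L) where
  idem x := by
    change topIdem q L x * topIdem q L x = topIdem q L x
    rw [topIdem, ← map_mul, placeIdemAt_mul_self]
  ortho := by
    intro x y hxy
    change topIdem q L x * topIdem q L y = 0
    rw [topIdem, topIdem, ← map_mul, placeIdemAt_mul_of_ne q L hxy, map_zero]
  complete := by
    simp only [topIdem]
    rw [← map_sum, sum_placeIdemAt, map_one]

theorem aut_topIdem (σ : GQ) (x : Places q L) :
    Loc.aut Qbar q σ (topIdem q L x) = topIdem q L (AlgEquiv.restrictNormalHom L σ • x) := by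
  rw [topIdem, aut_map_restrict, aut_placeIdemAt, topIdem]

/-- The base place: the one cut out by `padicPlace q`. -/
noncomputable abbrev basePlace : Places q L := ((1 : L ≃ₐ[ℚ] L) : (L ≃ₐ[ℚ] L) ⧸ decGroup q L)

theorem topIdem_basePlace : topIdem q L (basePlace q L) = Loc.map q L.val (placeIdem q L) := by
  rw [topIdem, placeIdemAt_mk, Loc.aut_one]
  rfl

theorem evTop_topIdem_basePlace : evTop q (topIdem q L (basePlace q L)) = 1 := by
  rw [topIdem_basePlace, evTop_map, locEval_placeIdem]

/-- A unit of `L ⊗ ℚ_q` in the block of the base place with trivial evaluation is `1`. -/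
theorem eq_one_of_locEval_eq_one (v : (Loc L q)ˣ)
    (hblock : (v : Loc L q) * placeIdem q L + (1 - placeIdem q L) = v)
    (hev : locEval q L v = 1) : v = 1 := by
  apply Units.ext
  have h1 : ((v : Loc L q) - 1) * placeIdem q L = (v : Loc L q) - 1 := by
    have he := placeIdem_mul_self q L
    linear_combination hblock
  have h2 : locEval q L ((v : Loc L q) - 1) = 0 := by rw [map_sub, map_one, hev, sub_self]
  have h3 := locEval_injOn_block q L h1 h2
  rw [Units.val_one]
  exact sub_eq_zero.1 h3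

/-- Every non-zero element of the local level is the evaluation of a unit of `L ⊗ ℚ_q` in the block
of the base place. -/
theorem exists_block_unit {y : (PadicAlgCl (q : ℕ))ˣ}
    (hy : (y : PadicAlgCl (q : ℕ)) ∈ localLevel (q : ℕ) L) :
    ∃ v : (Loc L q)ˣ, (v : Loc L q) * placeIdem q L + (1 - placeIdem q L) = v ∧
      locEval q L v = y := by
  obtain ⟨r, hr, hry⟩ := exists_block_locEval_eq q L hy
  have hy' : ((y⁻¹ : (PadicAlgCl (q : ℕ))ˣ) : PadicAlgCl (q : ℕ)) ∈ localLevel (q : ℕ) L := by
    rw [Units.val_inv_eq_inv_val]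
    exact (localLevel (q : ℕ) L).inv_mem hy
  obtain ⟨r', hr', hry'⟩ := exists_block_locEval_eq q L hy'
  have he := placeIdem_mul_self q L
  have hprod : r * r' = placeIdem q L := by
    have h1 : (r * r' - placeIdem q L) * placeIdem q L = r * r' - placeIdem q L := by
      linear_combination r' * hr - he
    have h2 : locEval q L (r * r' - placeIdem q L) = 0 := by
      rw [map_sub, map_mul, hry, hry', locEval_placeIdem, Units.mul_inv, sub_self]
    exact sub_eq_zero.1 (locEval_injOn_block q L h1 h2)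
  have hu : (r + (1 - placeIdem q L)) * (r' + (1 - placeIdem q L)) = 1 := by
    linear_combination hprod - hr - hr' + he
  have hu' : (r' + (1 - placeIdem q L)) * (r + (1 - placeIdem q L)) = 1 := by
    rw [mul_comm]
    exact hu
  refine ⟨⟨r + (1 - placeIdem q L), r' + (1 - placeIdem q L), hu, hu'⟩, ?_, ?_⟩
  · change (r + (1 - placeIdem q L)) * placeIdem q L + (1 - placeIdem q L) =
      r + (1 - placeIdem q L)
    linear_combination hr - he
  · change locEval q L (r + (1 - placeIdem q L)) = y
    rw [map_add, map_sub, map_one, locEval_placeIdem, sub_self, add_zero, hry]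

end Level

end Fermat.Agent.CFT.D.H4.QIdele
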